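import Mathlib.Analysis.SpecialFunctions.Complex.CircleAddChar
import Fermat.Prelude.Def_AlgebraicCurve_Repartitions
import Fermat.Prelude.Def_GaloisRep_ComplexConjugation
import Fermat.Agent.WeightOneGalois.Interface

/-!
# What the Hecke and Eichler–Shimura part consumes

* `IsMonoBar` — a divisor over `ℚ̄` whose root has a given monodromy, read after embedding the
  expansion in `ℂ((q))`;
* `MonoY`, `MonoInputs` — the integral model of the torsion with this characterisation
  (`WeightOneGalois/Monodromy`);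
* `GenusY` — the genus of the curve of `GT M` does not drop modulo `p ∤ M`, if `Γ₀(M)` has no
  elliptic element (`WeightOneGalois/Genus`).
-/

noncomputable section

namespace Fermat.Agent.WeightOneGalois

open AlgebraicCurve ModularCurve UpperHalfPlane
open scoped MatrixGroups ModularForm Manifold

local notation "Γℚ" => (AlgebraicClosure ℚ ≃ₐ[ℚ] AlgebraicClosure ℚ)
local notation "Qbar" => AlgebraicClosure ℚ

variable (M : ℕ) [NeZero M]

/-- `x` is a ratio `A / B` with an `m`-th root `h / B` of monodromy `φ`. -/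
def HasRootMono (m : ℕ) [NeZero m] (x : LaurentSeries ℂ) (φ : Additive (GT M) →+ ZMod m) : Prop :=
  ∃ (k : ℤ) (A B h : ℍ → ℂ), MF.IsFormFn (GT M) k A ∧ MF.IsFormFn (GT M) k B ∧ B ≠ 0 ∧
    x * MF.lq B = MF.lq A ∧ MDiff h ∧ h ^ m = A * B ^ (m - 1) ∧
    ∀ γ : GT M, h ∣[k] (γ : SL(2, ℤ)) = ZMod.stdAddChar (φ (Additive.ofMul γ)) • h

/-- `φ` is the monodromy of an `m`-th root of a function with divisor `m • D`. -/
def IsMonoBar (m : ℕ) [NeZero m] (D : Divisor Qbar (FYK M Qbar))
    (φ : Additive (GT M) →+ ZMod m) : Prop :=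
  ∃ x : FYK M Qbar, x ≠ 0 ∧ (∀ v, (m : ℤ) * D v = v.ord x) ∧
    HasRootMono M m (coeffMap (complexEmbedding : Qbar →+* ℂ) (x : LaurentSeries Qbar)) φ

/-- Reduction of an element of the lattice modulo `m`. -/
def redLat (m : ℕ) (v : Lat M) : Additive (GT M) →+ ZMod m :=
  (Int.castAddHom (ZMod m)).comp (v : Additive (GT M) →+ ℤ)

/-- The `ℓ`-torsion of the Jacobian of `GT M`, with its monodromy. -/
structure MonoY (ℓ : ℕ) [NeZero ℓ] where
  /-- The map from the lattice onto the `ℓ`-torsion, with kernel `ℓ Lat M`. -/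
  proj : Lat M →+ JY M
  range_eq : ∀ x : JY M, ℓ • x = 0 ↔ x ∈ proj.range
  ker_eq : ∀ v : Lat M, proj v = 0 ↔ ∃ w : Lat M, v = ℓ • w
  finite_level : ∀ v : Lat M, ∃ L : IntermediateField ℚ Qbar, FiniteDimensional ℚ L ∧
    ∀ σ : Γℚ, (∀ a ∈ L, σ a = a) → σ • proj v = proj v
  exists_mono : ∀ v : Lat M, ∃ D : Divisor.degZero (K := Qbar) (F := FYK M Qbar),
    IsMonoBar M ℓ (D : Divisor Qbar (FYK M Qbar)) (redLat M ℓ v) ∧ proj v = Pic0.mk D
  proj_eq : ∀ (v : Lat M) (D : Divisor.degZero (K := Qbar) (F := FYK M Qbar)),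
    IsMonoBar M ℓ (D : Divisor Qbar (FYK M Qbar)) (redLat M ℓ v) → proj v = Pic0.mk D

/-- The output of the monodromy description. -/
def MonoInputs : Prop :=
  ∀ (M : ℕ) [NeZero M] (ℓ : ℕ) [NeZero ℓ], 4 ≤ M → ℓ.Prime → Nonempty (MonoY M ℓ)

/-- The genus does not drop modulo a prime not dividing `M`. -/
def GenusY : Prop :=
  ∀ (M : ℕ) [NeZero M] (p : ℕ), 4 ≤ M → NoEll M → p.Prime → ¬ p ∣ M →
    ∀ A : ValuationSubring Qbar, A.LiesOverPrime p →
      genusFF Qbar (FYK M Qbar) ≤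
        genusFF (IsLocalRing.ResidueField A) (FYres M (IsLocalRing.ResidueField A))

end Fermat.Agent.WeightOneGalois
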