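import Fermat.Agent.MF.Descent
import Fermat.Agent.WeightOneGalois.Field.Series

/-!
# Generators of the fields of level `M`

`FY M`, `FYK` and `FYres` are generated by the series `j(q^d)` and `ySer`, and base change from
`ℚ` matches them; used to define maps on these fields by their effect on generators.
-/

noncomputable section

namespace Fermat.Agent.WeightOneGalois

open ModularCurve IntermediateField

variable {M : ℕ} [NeZero M]

omit [NeZero M] in
theorem unit_ne_zero (hM : M ≠ 1) (a : (ZMod M)ˣ) : (a : ZMod M) ≠ 0 := by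
  have : Nontrivial (ZMod M) := ZMod.nontrivial_iff.mpr hM
  exact a.ne_zero

/-- The generators `yFam` are defined over the prime ring. -/
theorem coeffMap_yFam_one {R S : Type*} [CommRing R] [CommRing S] (hM : M ≠ 1) (f : R →+* S)
    (a : (ZMod M)ˣ) : coeffMap f (yFam R 1 ((a : ZMod M), 0)) = yFam S 1 ((a : ZMod M), 0) := by
  rw [Field.coeffMap_yFam f (fun h => absurd h (unit_ne_zero hM a)), map_one]

variable (M) (K : Type*) [Field K]

/-- Generators of the field of level `M` over `K`. -/
def genY : Set (LaurentSeries K) :=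
  divisorExpansionsC K (M ^ 2) ∪ Set.range fun a : (ZMod M)ˣ => yFam K 1 ((a : ZMod M), 0)

theorem FYres_eq_adjoin : FYres M K = adjoin K (genY M K) := by
  rw [FYres, genY, adjoin_union]
  rfl

variable {M K}

theorem coeffMap_image_genY {K' : Type*} [Field K'] (hM : M ≠ 1) (f : K →+* K') :
    coeffMap f '' genY M K = genY M K' := by
  rw [genY, genY, Set.image_union, MF.coeffMap_image_divisorExpansions, ← Set.range_comp]
  congr 2
  funext a
  exact coeffMap_yFam_one hM f a

theorem coeffMap_mem_FYres {K' : Type*} [Field K'] (hM : M ≠ 1) (f : K →+* K')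
    {x : LaurentSeries K} (hx : x ∈ FYres M K) : coeffMap f x ∈ FYres M K' := by
  rw [FYres_eq_adjoin] at hx ⊢
  let := f.toAlgebra
  rw [← coeffMap_image_genY hM f]
  exact MF.coeffMap_mem_adjoin (k := K) (K := K') hx

theorem mem_FYres_of_coeffMap_mem {K' : Type*} [Field K'] (hM : M ≠ 1) (f : K →+* K')
    {x : LaurentSeries K} (hx : coeffMap f x ∈ FYres M K') : x ∈ FYres M K := by
  rw [FYres_eq_adjoin] at hx ⊢
  let := f.toAlgebra
  rw [← coeffMap_image_genY hM f] at hx
  exact MF.mem_adjoin_of_coeffMap_mem (k := K) (K := K') hx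

theorem FY_eq_adjoin : FY M = adjoin ℚ (genY M ℚ) := by
  rw [← FYres_eq_adjoin, FYres, modularFunctionFieldFullC_rat]
  rfl

/-- The base change of `FY M` is generated by the same series. -/
theorem laurentBaseChange_FY (hM : M ≠ 1) (L : Type*) [Field L] [Algebra ℚ L] :
    laurentBaseChange L (FY M) = FYres M L := by
  refine le_antisymm ?_ ?_
  · rw [laurentBaseChange, adjoin_le_iff]
    rintro _ ⟨y, hy, rfl⟩
    rw [FY_eq_adjoin, ← FYres_eq_adjoin] at hy
    exact coeffMap_mem_FYres hM _ hy
  · rw [FYres_eq_adjoin, adjoin_le_iff, ← coeffMap_image_genY hM (algebraMap ℚ L)]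
    rintro _ ⟨y, hy, rfl⟩
    refine coeffEmb_mem_laurentBaseChange L (?_ : y ∈ _)
    rw [FY_eq_adjoin]
    exact subset_adjoin ℚ _ hy

theorem jqModC_mem_FYres (K : Type*) [Field K] : jqModC K ∈ FYres M K := by
  refine (le_sup_left : modularFunctionFieldFullC K (M ^ 2) ≤ FYres M K) ?_
  simpa [qExpand_one_apply] using jqModCd_mem_full K (M ^ 2) (d := 1) (one_dvd _)

end Fermat.Agent.WeightOneGalois
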