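import Fermat.Agent.EichlerShimura.Series
import Fermat.Agent.MF.FunctionField
import Fermat.Agent.WeightOneGalois.Period.Level
import Fermat.Agent.X0.FormField

/-!
# Expansions of ratios of forms, and the conjugates at the level `(M, p)`

`FormExp` turns an operation on forms into a homomorphism on ratios of forms; this is applied to
diamonds and to the `p + 1` conjugates `(f ∣ δ)(pτ) ∣ g_i`.
-/

noncomputable section

namespace Fermat.Agent.WeightOneGalois

open CongruenceSubgroup UpperHalfPlane Function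
open Fermat.Agent.MF (IsFormFn IsQFn IsRatioOn lq scale affH ratioSub)
open scoped MatrixGroups ModularForm Manifold

/-! ### The field of ratios of a group containing `T`, and its expansions -/

section Ratio

variable (Γ : Subgroup SL(2, ℤ)) (hT : ModularGroup.T ∈ Γ)

/-- An expansion of forms on `Γ`. -/
structure FormExp where
  /-- The expansion of a function of weight `k`, additive and multiplicative in the forms. -/
  E : ℤ → (ℍ → ℂ) → (ℍ → ℂ)
  isQFn : ∀ {k : ℤ} {f : ℍ → ℂ}, IsFormFn Γ k f → IsQFn (E k f)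
  map_mul : ∀ (k k' : ℤ) (f g : ℍ → ℂ), E (k + k') (f * g) = E k f * E k' g
  map_add : ∀ (k : ℤ) (f g : ℍ → ℂ), E k (f + g) = E k f + E k g
  map_const : ∀ c : ℂ, E 0 (fun _ => c) = fun _ => c
  ne_zero : ∀ {k : ℤ} {f : ℍ → ℂ}, f ≠ 0 → E k f ≠ 0

variable {Γ}

namespace FormExp

variable (Φ : FormExp Γ)

theorem map_zero' (k : ℤ) : Φ.E k 0 = 0 := by
  have := Φ.map_add k 0 0
  rw [add_zero] at this
  exact add_left_cancel (a := Φ.E k 0) (this.symm.trans (add_zero _).symm)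

theorem map_one' : Φ.E 0 1 = 1 := Φ.map_const 1

theorem lq_ne_zero {k : ℤ} {f : ℍ → ℂ} (hf : IsFormFn Γ k f) (h : f ≠ 0) : lq (Φ.E k f) ≠ 0 :=
  fun h0 => Φ.ne_zero h ((MF.lq_eq_zero_iff (Φ.isQFn hf)).mp h0)

variable {hT}

/-- The value of an expansion at a ratio of forms. -/
def val (x : ratioSub Γ hT) : LaurentSeries ℂ :=
  lq (Φ.E x.2.choose x.2.choose_spec.choose) /
    lq (Φ.E x.2.choose x.2.choose_spec.choose_spec.choose)

theorem val_eq (x : ratioSub Γ hT) {k : ℤ} {f g : ℍ → ℂ} (hf : IsFormFn Γ k f)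
    (hg : IsFormFn Γ k g) (hg0 : g ≠ 0) (h : (x : LaurentSeries ℂ) * lq g = lq f) :
    Φ.val x = lq (Φ.E k f) / lq (Φ.E k g) := by
  obtain ⟨hf', hg', hg'0, h'⟩ := x.2.choose_spec.choose_spec.choose_spec
  rw [val, div_eq_div_iff (Φ.lq_ne_zero hg' hg'0) (Φ.lq_ne_zero hg hg0),
    ← MF.lq_mul (Φ.isQFn hf') (Φ.isQFn hg), ← MF.lq_mul (Φ.isQFn hf) (Φ.isQFn hg'),
    ← Φ.map_mul, ← Φ.map_mul, add_comm k]
  congr 2
  rw [← MF.lq_inj ((hf'.mul hg).isQFn hT) ((hf.mul hg').isQFn hT),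
    MF.lq_mul (hf'.isQFn hT) (hg.isQFn hT), MF.lq_mul (hf.isQFn hT) (hg'.isQFn hT)]
  refine mul_right_cancel₀ (b := (1 : LaurentSeries ℂ)) one_ne_zero ?_
  linear_combination (lq (x.2.choose_spec.choose_spec.choose)) * h - (lq g) * h'

/-- The expansion as a homomorphism on ratios. -/
def hom : ratioSub Γ hT →+* LaurentSeries ℂ where
  toFun := Φ.val
  map_one' := by
    rw [Φ.val_eq 1 (k := 0) IsFormFn.one IsFormFn.one one_ne_zero (by simp)]
    exact div_self (Φ.lq_ne_zero IsFormFn.one one_ne_zero)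
  map_zero' := by
    rw [Φ.val_eq 0 (k := 0) IsFormFn.zero IsFormFn.one one_ne_zero (by simp), Φ.map_zero',
      MF.lq_zero, zero_div]
  map_mul' x y := by
    obtain ⟨k, f, g, hf, hg, hg0, h⟩ := x.2
    obtain ⟨k', f', g', hf', hg', hg'0, h'⟩ := y.2
    have hne : g * g' ≠ 0 := fun h0 => ((mul_eq_zero_iff hg.mdiff hg'.mdiff).mp h0).elim hg0 hg'0
    rw [Φ.val_eq x hf hg hg0 h, Φ.val_eq y hf' hg' hg'0 h', Φ.val_eq (x * y) (hf.mul hf')
        (hg.mul hg') hne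
      (by rw [MF.lq_mul (hg.isQFn hT) (hg'.isQFn hT), MF.lq_mul (hf.isQFn hT) (hf'.isQFn hT), ← h,
            ← h']; push_cast; ring),
      Φ.map_mul, Φ.map_mul, MF.lq_mul (Φ.isQFn hf) (Φ.isQFn hf'),
      MF.lq_mul (Φ.isQFn hg) (Φ.isQFn hg'), div_mul_div_comm]
  map_add' x y := by
    obtain ⟨k, f, g, hf, hg, hg0, h⟩ := x.2
    obtain ⟨k', f', g', hf', hg', hg'0, h'⟩ := y.2
    have hne : g * g' ≠ 0 := fun h0 => ((mul_eq_zero_iff hg.mdiff hg'.mdiff).mp h0).elim hg0 hg'0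
    rw [Φ.val_eq x hf hg hg0 h, Φ.val_eq y hf' hg' hg'0 h',
      Φ.val_eq (x + y) ((hf.mul hg').add (hg.mul hf')) (hg.mul hg') hne
      (by rw [MF.lq_mul (hg.isQFn hT) (hg'.isQFn hT),
            MF.lq_add ((hf.mul hg').isQFn hT) ((hg.mul hf').isQFn hT),
            MF.lq_mul (hf.isQFn hT) (hg'.isQFn hT), MF.lq_mul (hg.isQFn hT) (hf'.isQFn hT), ← h,
            ← h']; push_cast; ring),
      div_add_div _ _ (Φ.lq_ne_zero hg hg0) (Φ.lq_ne_zero hg' hg'0), Φ.map_add, Φ.map_mul,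
      Φ.map_mul, Φ.map_mul, MF.lq_add ((Φ.isQFn hf).mul (Φ.isQFn hg'))
        ((Φ.isQFn hg).mul (Φ.isQFn hf')), MF.lq_mul (Φ.isQFn hf) (Φ.isQFn hg'),
      MF.lq_mul (Φ.isQFn hg) (Φ.isQFn hf'), MF.lq_mul (Φ.isQFn hg) (Φ.isQFn hg')]

theorem hom_eq (x : ratioSub Γ hT) {k : ℤ} {f g : ℍ → ℂ} (hf : IsFormFn Γ k f)
    (hg : IsFormFn Γ k g) (hg0 : g ≠ 0) (h : (x : LaurentSeries ℂ) * lq g = lq f) :
    Φ.hom x = lq (Φ.E k f) / lq (Φ.E k g) :=
  Φ.val_eq x hf hg hg0 h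

theorem hom_algebraMap (c : ℂ) : Φ.hom (algebraMap ℂ (ratioSub Γ hT) c) = HahnSeries.C c := by
  rw [Φ.hom_eq _ (k := 0) (IsFormFn.const c) IsFormFn.one one_ne_zero (f := fun _ => c) (by
    rw [MF.lq_one, mul_one, MF.lq_const]; exact MF.algebraMap_eq_C c), Φ.map_const, Φ.map_one',
    MF.lq_one, div_one, MF.lq_const]

end FormExp

end Ratio

/-! ### The group of level `(M, p)` -/

variable (M p : ℕ)

/-- `GT M ∩ Γ₀(p)`. -/
def GTp : Subgroup SL(2, ℤ) := GT M ⊓ Gamma0 p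

theorem GTp_le : GTp M p ≤ GT M := inf_le_left

theorem T_mem_GTp : ModularGroup.T ∈ GTp M p := ⟨T_mem_GT M, MF.T_mem_Gamma0 p⟩

variable {M p}

theorem conj_T_pow_mem_GTp {g : SL(2, ℤ)} (hg : g ∈ GT M) :
    g * ModularGroup.T ^ (p : ℤ) * g⁻¹ ∈ GTp M p := by
  refine Subgroup.mem_inf.mpr
    ⟨(GT M).mul_mem ((GT M).mul_mem hg ((GT M).zpow_mem (T_mem_GT M) _)) ((GT M).inv_mem hg), ?_⟩
  have h0 := ModularGroup_T_pow_mem_Gamma (p : ℤ) (p : ℤ) dvd_rfl
  rw [Int.natAbs_natCast] at h0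
  have h : g * ModularGroup.T ^ (p : ℤ) * g⁻¹ ∈ Gamma p := (Gamma_normal p).conj_mem _ h0 g
  exact Gamma0_mem.mpr (Gamma_mem.mp h).2.2.1

theorem isFormFn_slash_dia {k : ℤ} {f : ℍ → ℂ} (hf : IsFormFn (GT M) k f) {σ : SL(2, ℤ)}
    (hσ : σ ∈ Gamma0 (M ^ 2)) : IsFormFn (GT M) k (f ∣[k] σ) where
  slash_eq γ hγ := by
    rw [← SlashAction.slash_mul, show σ * γ = (σ * γ * σ⁻¹) * σ by rw [inv_mul_cancel_right],
      SlashAction.slash_mul, hf.slash_eq _ (conj_mem_GT hσ hγ)]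
  mdiff := hf.mdiff.slash k _
  bdd γ := by rw [← SlashAction.slash_mul]; exact hf.bdd _

/-- The expansion of a form slashed by a diamond. -/
def diaExp {σ : SL(2, ℤ)} (hσ : σ ∈ Gamma0 (M ^ 2)) : FormExp (GT M) where
  E k f := f ∣[k] σ
  isQFn hf := (isFormFn_slash_dia hf hσ).isQFn (T_mem_GT M)
  map_mul k k' f g := ModularForm.mul_slash_SL2 k k' σ f g
  map_add k f g := SlashAction.add_slash k σ f g
  map_const c := ModularForm.is_invariant_const σ c
  ne_zero h := X0.slash_ne_zero h σ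

/-! ### Representatives of `GTp` in `GT` -/

theorem heckeRep_none_lower {δ h c : SL(2, ℤ)}
    (e : heckeRep p δ none * (h : Matrix (Fin 2) (Fin 2) ℤ) =
      (c : Matrix (Fin 2) (Fin 2) ℤ) * heckeRep p δ none) : h ∈ Gamma0 p := by
  set X : SL(2, ℤ) := δ⁻¹ * c * δ
  have e' : (!![(p : ℤ), 0; 0, 1] : Matrix (Fin 2) (Fin 2) ℤ) * (h : Matrix (Fin 2) (Fin 2) ℤ) =
      (X : Matrix (Fin 2) (Fin 2) ℤ) * !![(p : ℤ), 0; 0, 1] := by
    have := congrArg (((δ⁻¹ : SL(2, ℤ)) : Matrix (Fin 2) (Fin 2) ℤ) * ·) e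
    simp only [heckeRep, ← Matrix.mul_assoc, ← Matrix.SpecialLinearGroup.coe_mul,
      inv_mul_cancel, Matrix.SpecialLinearGroup.coe_one, Matrix.one_mul] at this
    simpa [X, mul_assoc] using this
  have h10 := congrFun (congrFun e' 1) 0
  simp [Matrix.mul_apply, Fin.sum_univ_two] at h10
  rw [Gamma0_mem, ZMod.intCast_zmod_eq_zero_iff_dvd, h10]
  exact dvd_mul_left _ _

theorem heckeRep_none_step {δ γ : SL(2, ℤ)} (hp : p.Prime) {b : Fin p} {c : SL(2, ℤ)}
    (e : heckeRep p δ none * (γ : Matrix (Fin 2) (Fin 2) ℤ) =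
      (c : Matrix (Fin 2) (Fin 2) ℤ) * heckeRep p δ (some b)) : γ ∉ Gamma0 p := by
  intro hγp
  rw [Gamma0_mem, ZMod.intCast_zmod_eq_zero_iff_dvd] at hγp
  obtain ⟨u, hu⟩ := hγp
  set X : SL(2, ℤ) := δ⁻¹ * c
  have e' : (!![(p : ℤ), 0; 0, 1] : Matrix (Fin 2) (Fin 2) ℤ) * (γ : Matrix (Fin 2) (Fin 2) ℤ) =
      (X : Matrix (Fin 2) (Fin 2) ℤ) * !![1, (b : ℤ); 0, (p : ℤ)] := by
    have := congrArg (((δ⁻¹ : SL(2, ℤ)) : Matrix (Fin 2) (Fin 2) ℤ) * ·) e
    simp only [heckeRep, ← Matrix.mul_assoc, ← Matrix.SpecialLinearGroup.coe_mul,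
      inv_mul_cancel, Matrix.SpecialLinearGroup.coe_one, Matrix.one_mul] at this
    exact this
  have h10 := congrFun (congrFun e' 1) 0
  have h11 := congrFun (congrFun e' 1) 1
  simp [Matrix.mul_apply, Fin.sum_univ_two] at h10 h11
  have hdet : γ 0 0 * γ 1 1 - γ 0 1 * γ 1 0 = 1 := by
    have := γ.2; rwa [Matrix.det_fin_two] at this
  rw [← h10] at h11
  rw [h11, hu] at hdet
  have : (p : ℤ) ∣ 1 := ⟨γ 0 0 * (u * b + X 1 1) - γ 0 1 * u, by linear_combination -hdet⟩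
  exact hp.one_lt.ne' (by exact_mod_cast Int.eq_one_of_dvd_one (by positivity) this)

section Reps

variable {δ : SL(2, ℤ)} (hp : p.Prime) (hpM : ¬ p ∣ M) (hδ : IsDiaRep M p δ)
include hp hpM hδ

theorem exists_gRep (i : Option (Fin p)) : ∃ g c : SL(2, ℤ), g ∈ GT M ∧ c ∈ GT M ∧
    heckeRep p δ none * (g : Matrix (Fin 2) (Fin 2) ℤ) =
      (c : Matrix (Fin 2) (Fin 2) ℤ) * heckeRep p δ i := by
  rcases i with - | b
  · exact ⟨1, 1, one_mem _, one_mem _, by simp⟩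
  let γ₀ : SL(2, ℤ) := ⟨!![1, 0; (M : ℤ) ^ 2, 1], by simp [Matrix.det_fin_two_of]⟩
  have hγ₀ : γ₀ ∈ GT M := by
    refine ⟨Gamma0_mem.mpr ?_, Or.inl ?_⟩
    · show (((M : ℤ) ^ 2 : ℤ) : ZMod (M ^ 2)) = 0
      rw [ZMod.intCast_zmod_eq_zero_iff_dvd]
      push_cast
      exact dvd_rfl
    · show ((1 : ℤ) : ZMod M) = 1
      simp
  obtain ⟨j, c, hc, hc11, e⟩ := exists_step hp hpM hδ hγ₀.1 none
  have hcGT : c ∈ GT M := ⟨hc, by rw [hc11]; exact hγ₀.2⟩
  rcases j with - | b₀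
  · exfalso
    have h := heckeRep_none_lower e
    rw [Gamma0_mem, ZMod.intCast_zmod_eq_zero_iff_dvd] at h
    have h' : (p : ℤ) ∣ (M : ℤ) ^ 2 := h
    exact hpM (hp.dvd_of_dvd_pow (Int.natCast_dvd_natCast.mp (by exact_mod_cast h')))
  · refine ⟨γ₀ * ModularGroup.T ^ ((b : ℤ) - b₀), c,
      mul_mem hγ₀ ((GT M).zpow_mem (T_mem_GT M) _), hcGT, ?_⟩
    rw [Matrix.SpecialLinearGroup.coe_mul, ← Matrix.mul_assoc, e, Matrix.mul_assoc]
    congr 1
    rw [ModularGroup.coe_T_zpow]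
    simp only [heckeRep]
    ext u v
    fin_cases u <;> fin_cases v <;> simp [Matrix.mul_apply, Fin.sum_univ_two]

/-- `gRep i` carries the conjugate `none` to `i`. -/
def gRep (i : Option (Fin p)) : SL(2, ℤ) := (exists_gRep hp hpM hδ i).choose

/-- The element of `GT` carried across by `gRep i`. -/
def cRep (i : Option (Fin p)) : SL(2, ℤ) := (exists_gRep hp hpM hδ i).choose_spec.choose

theorem gRep_mem (i : Option (Fin p)) : gRep hp hpM hδ i ∈ GT M :=
  (exists_gRep hp hpM hδ i).choose_spec.choose_spec.1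

theorem cRep_mem (i : Option (Fin p)) : cRep hp hpM hδ i ∈ GT M :=
  (exists_gRep hp hpM hδ i).choose_spec.choose_spec.2.1

theorem gRep_spec (i : Option (Fin p)) :
    heckeRep p δ none * (gRep hp hpM hδ i : Matrix (Fin 2) (Fin 2) ℤ) =
      (cRep hp hpM hδ i : Matrix (Fin 2) (Fin 2) ℤ) * heckeRep p δ i :=
  (exists_gRep hp hpM hδ i).choose_spec.choose_spec.2.2

theorem gRep_perm {i j : Option (Fin p)} {γ c : SL(2, ℤ)} (hγ : γ ∈ GT M)
    (e : heckeRep p δ i * (γ : Matrix (Fin 2) (Fin 2) ℤ) =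
      (c : Matrix (Fin 2) (Fin 2) ℤ) * heckeRep p δ j) :
    gRep hp hpM hδ i * γ * (gRep hp hpM hδ j)⁻¹ ∈ GTp M p := by
  refine Subgroup.mem_inf.mpr
    ⟨(GT M).mul_mem ((GT M).mul_mem (gRep_mem hp hpM hδ i) hγ)
      ((GT M).inv_mem (gRep_mem hp hpM hδ j)),
    heckeRep_none_lower (δ := δ)
      (c := cRep hp hpM hδ i * c * (cRep hp hpM hδ j)⁻¹) ?_⟩
  have hj : heckeRep p δ j * ((gRep hp hpM hδ j)⁻¹ : SL(2, ℤ)) =
      (((cRep hp hpM hδ j)⁻¹ : SL(2, ℤ)) : Matrix (Fin 2) (Fin 2) ℤ) * heckeRep p δ none := by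
    have h1 := congrArg ((((cRep hp hpM hδ j)⁻¹ : SL(2, ℤ)) : Matrix (Fin 2) (Fin 2) ℤ) * ·)
      (congrArg (· * (((gRep hp hpM hδ j)⁻¹ : SL(2, ℤ)) : Matrix (Fin 2) (Fin 2) ℤ))
        (gRep_spec hp hpM hδ j))
    simp only [Matrix.mul_assoc, ← Matrix.SpecialLinearGroup.coe_mul, mul_inv_cancel,
      Matrix.SpecialLinearGroup.coe_one, Matrix.mul_one] at h1
    simp only [← Matrix.mul_assoc, ← Matrix.SpecialLinearGroup.coe_mul, inv_mul_cancel,
      Matrix.SpecialLinearGroup.coe_one, Matrix.one_mul] at h1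
    exact h1.symm
  simp only [Matrix.SpecialLinearGroup.coe_mul, ← Matrix.mul_assoc]
  rw [gRep_spec hp hpM hδ i, Matrix.mul_assoc _ (heckeRep p δ i), e, ← Matrix.mul_assoc,
    Matrix.mul_assoc _ (heckeRep p δ j), hj, ← Matrix.mul_assoc]

end Reps

/-! ### Slashing by the representatives -/

theorem det_repGL {δ : SL(2, ℤ)} (hp : p ≠ 0) (i : Option (Fin p)) :
    ((repGL p δ i).det : ℝ) = p := by
  rw [Matrix.GeneralLinearGroup.val_det_apply, val_repGL hp]
  rcases i with - | b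
  · rw [heckeRep, Matrix.map_mul, Matrix.det_mul,
      show ((δ : Matrix (Fin 2) (Fin 2) ℤ).map (Int.castRingHom ℝ)).det = 1 from
        (Matrix.SpecialLinearGroup.map (Int.castRingHom ℝ) δ).det_coe, one_mul]
    simp [Matrix.det_fin_two]
  · simp [heckeRep, Matrix.det_fin_two]

theorem σ_repGL {δ : SL(2, ℤ)} (i : Option (Fin p)) : σ (repGL p δ i) = .refl ℝ ℂ := by
  rw [σ, if_pos]
  rw [Matrix.GeneralLinearGroup.val_det_apply]
  exact repGL_det_pos i

variable (p) in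
/-- `f ↦ f(r τ) j(r, τ)^(-k)` for the representative `r` of index `i`. -/
def slR (δ : SL(2, ℤ)) (k : ℤ) (i : Option (Fin p)) (f : ℍ → ℂ) : ℍ → ℂ :=
  ((p : ℂ) ^ (1 - k)) • (f ∣[k] repGL p δ i)

section SlR

variable [NeZero p] {δ : SL(2, ℤ)}

theorem slR_mul (k k' : ℤ) (i : Option (Fin p)) (f g : ℍ → ℂ) :
    slR p δ (k + k') i (f * g) = slR p δ k i f * slR p δ k' i g := by
  have hp : (p : ℂ) ≠ 0 := by exact_mod_cast NeZero.ne p
  funext τ
  simp only [slR, ModularForm.mul_slash, det_repGL (NeZero.ne p), Nat.abs_cast, Pi.smul_apply,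
    Pi.mul_apply, smul_eq_mul, Complex.real_smul, Complex.ofReal_natCast]
  have : (p : ℂ) ^ (1 - (k + k')) * p = (p : ℂ) ^ (1 - k) * (p : ℂ) ^ (1 - k') := by
    rw [← zpow_add₀ hp, ← zpow_add_one₀ hp]; ring_nf
  linear_combination ((f ∣[k] repGL p δ i) τ * (g ∣[k'] repGL p δ i) τ) * this

omit [NeZero p] in
theorem slR_smul (k : ℤ) (i : Option (Fin p)) (c : ℂ) (f : ℍ → ℂ) :
    slR p δ k i (c • f) = c • slR p δ k i f := by
  rw [slR, ModularForm.smul_slash, σ_repGL, slR, smul_comm]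
  rfl

theorem slR_const (i : Option (Fin p)) (c : ℂ) :
    slR p δ 0 i (fun _ => c) = fun _ => c := by
  have hp : (p : ℂ) ≠ 0 := by exact_mod_cast NeZero.ne p
  funext τ
  rw [slR, Pi.smul_apply, ModularForm.slash_apply, σ_repGL, det_repGL (NeZero.ne p)]
  simp
  field_simp

theorem slR_pow (k : ℤ) (i : Option (Fin p)) (f : ℍ → ℂ) (n : ℕ) :
    slR p δ ((n : ℤ) * k) i (f ^ n) = slR p δ k i f ^ n := by
  induction n with
  | zero =>
    simp only [Nat.cast_zero, zero_mul, pow_zero]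
    exact slR_const (δ := δ) i 1
  | succ n ih =>
    rw [pow_succ, pow_succ, ← ih, ← slR_mul]
    congr 1
    push_cast
    ring

theorem slR_slash (k : ℤ) {i j : Option (Fin p)} {γ c : SL(2, ℤ)} (f : ℍ → ℂ)
    (e : heckeRep p δ i * (γ : Matrix (Fin 2) (Fin 2) ℤ) =
      (c : Matrix (Fin 2) (Fin 2) ℤ) * heckeRep p δ j) :
    slR p δ k i f ∣[k] γ = slR p δ k j (f ∣[k] c) := by
  rw [slR, ModularForm.SL_smul_slash, ModularForm.SL_slash, ← SlashAction.slash_mul,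
    repGL_mul (NeZero.ne p) e, SlashAction.slash_mul]
  rfl

theorem slR_none_eq (k : ℤ) (f : ℍ → ℂ) :
    slR p δ k none f = (f ∣[k] δ) ∘ scale p := by
  have hp : (p : ℂ) ≠ 0 := by exact_mod_cast NeZero.ne p
  funext τ
  rw [slR, repGL, SlashAction.slash_mul, Pi.smul_apply,
    ModularForm.slash_heckeDiagMatrix_apply k (NeZero.ne p), smul_eq_mul, ← mul_assoc,
    ← zpow_add₀ hp, show 1 - k + (k - 1) = (0 : ℤ) by ring, zpow_zero, one_mul,
    ← ModularForm.SL_slash, comp_apply]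
  refine congrArg (f ∣[k] δ) (UpperHalfPlane.ext ?_)
  rw [ModularForm.coe_heckeDiagMatrix_smul (NeZero.ne p), MF.coe_scale]

theorem slR_some_eq (k : ℤ) (b : Fin p) (f : ℍ → ℂ) :
    slR p δ k (some b) f = ((p : ℂ) ^ (-k)) • (f ∘ affH 1 p (b : ℤ)) := by
  have hp : (p : ℂ) ≠ 0 := by exact_mod_cast NeZero.ne p
  funext τ
  rw [slR, repGL, Pi.smul_apply, ModularForm.slash_heckeMatrix_apply k (NeZero.ne p), smul_eq_mul,
    ← mul_assoc, ← zpow_neg_one, ← zpow_add₀ hp, Pi.smul_apply, comp_apply, smul_eq_mul,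
    show (1 - k + -1 : ℤ) = -k by ring]
  congr 2
  exact UpperHalfPlane.ext
      (by rw [ModularForm.coe_heckeMatrix_smul (NeZero.ne p), MF.coe_affH]; simp)

variable (hp : p.Prime) (hpM : ¬ p ∣ M) (hδ : IsDiaRep M p δ)

theorem bdd_slash_comp_scale {Γ : Subgroup SL(2, ℤ)} {k : ℤ} {f : ℍ → ℂ} (hf : IsFormFn Γ k f)
    (N : ℕ) [NeZero N] (γ : SL(2, ℤ)) : IsBoundedAtImInfty ((f ∘ scale N) ∣[k] γ) := by
  obtain ⟨σ, a, d, b, ha, hd, hH⟩ := MF.exists_hermite N γ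
  rw [MF.slash_scale hH]
  exact ((hf.bdd σ).comp_tendsto (MF.tendsto_affH a d b)).const_smul_left _

include hp hpM hδ

/-- `f ↦ (f∣δ)(pτ)` lands in forms on `GTp`. -/
theorem isFormFn_slR_none {k : ℤ} {f : ℍ → ℂ} (hf : IsFormFn (GT M) k f) :
    IsFormFn (GTp M p) k (slR p δ k none f) where
  slash_eq γ hγ := by
    obtain ⟨j, c, hc, hc11, e⟩ := exists_step hp hpM hδ hγ.1.1 none
    rcases j with - | b
    · rw [slR_slash k f e, hf.slash_eq c ⟨hc, by rw [hc11]; exact hγ.1.2⟩]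
    · exact absurd hγ.2 (heckeRep_none_step hp e)
  mdiff := by rw [slR_none_eq]; exact MF.mdiff_affH p 1 0 (hf.mdiff.slash k _)
  bdd γ := by
    rw [slR_none_eq]
    exact bdd_slash_comp_scale (isFormFn_slash_dia hf hδ.1) p γ

/-- The conjugates of `(f∣δ)(pτ)`. -/
theorem slR_none_slash {k : ℤ} {f : ℍ → ℂ} (hf : IsFormFn (GT M) k f) (i : Option (Fin p)) :
    slR p δ k none f ∣[k] gRep hp hpM hδ i = slR p δ k i f := by
  rw [slR_slash k f (gRep_spec hp hpM hδ i), hf.slash_eq _ (cRep_mem hp hpM hδ i)]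

omit [NeZero p] in
/-- The product of the conjugates of a form on `GTp` is a form on `GT`. -/
theorem isFormFn_prodRep {k : ℤ} {F : ℍ → ℂ} (hF : IsFormFn (GTp M p) k F) :
    IsFormFn (GT M) ((Fintype.card (Option (Fin p)) : ℤ) * k)
      (∏ i, F ∣[k] gRep hp hpM hδ i) where
  slash_eq γ hγ := by
    obtain ⟨π, c, hπ, h⟩ := exists_steps hp hpM hδ hγ.1
    rw [← Finset.card_univ, MF.prod_slash_SL2_const,
      ← (Equiv.ofBijective π hπ).prod_comp fun i => F ∣[k] gRep hp hpM hδ i]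
    refine Finset.prod_congr rfl fun i _ => ?_
    rw [← SlashAction.slash_mul, Equiv.ofBijective_apply,
      show gRep hp hpM hδ i * γ = (gRep hp hpM hδ i * γ * (gRep hp hpM hδ (π i))⁻¹) *
        gRep hp hpM hδ (π i) by rw [inv_mul_cancel_right],
      SlashAction.slash_mul, hF.slash_eq _ (gRep_perm hp hpM hδ hγ (h i).2.2)]
  mdiff := MDifferentiable.prod fun i _ => hF.mdiff.slash k _
  bdd γ := by
    rw [← Finset.card_univ, MF.prod_slash_SL2_const]
    refine MF.isBoundedAtImInfty_prod _ fun i _ => ?_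
    rw [← SlashAction.slash_mul]
    exact hF.bdd _

omit [NeZero p] in
theorem periodic_slash_gRep {k : ℤ} {F : ℍ → ℂ} (hF : IsFormFn (GTp M p) k F)
    (i : Option (Fin p)) :
    Periodic ((F ∣[k] gRep hp hpM hδ i) ∘ ofComplex) ((p : ℝ) : ℂ) := by
  intro w
  by_cases! hw : 0 < w.im
  · have hw' : 0 < (w + ((p : ℝ) : ℂ)).im := by
      rw [Complex.ofReal_natCast, Complex.add_im, Complex.natCast_im, add_zero]; exact hw
    simp only [comp_apply, ofComplex_apply_of_im_pos hw', ofComplex_apply_of_im_pos hw]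
    set τ : ℍ := ⟨w, hw⟩
    set g := gRep hp hpM hδ i
    have key : ((F ∣[k] g) ∣[k] (ModularGroup.T ^ (p : ℤ))) τ = (F ∣[k] g) τ := by
      rw [← SlashAction.slash_mul, show g * ModularGroup.T ^ (p : ℤ) =
        (g * ModularGroup.T ^ (p : ℤ) * g⁻¹) * g by rw [inv_mul_cancel_right],
        SlashAction.slash_mul, hF.slash_eq _ (conj_T_pow_mem_GTp (gRep_mem hp hpM hδ i))]
    rw [ModularForm.SL_slash_apply, modular_T_zpow_smul, ModularGroup.denom_apply,
      ModularGroup.coe_T_zpow] at key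
    simp only [Matrix.of_apply, Matrix.cons_val', Matrix.cons_val_zero, Matrix.cons_val_one,
      Matrix.cons_val_fin_one, Int.cast_zero, zero_mul, Int.cast_one, zero_add, one_zpow,
      mul_one, Int.cast_natCast] at key
    rw [← key]
    exact congrArg _ (UpperHalfPlane.ext (by rw [UpperHalfPlane.coe_vadd]; simp [τ, add_comm]))
  · have hw' : (w + ((p : ℝ) : ℂ)).im ≤ 0 := by
      rw [Complex.ofReal_natCast, Complex.add_im, Complex.natCast_im, add_zero]; exact hw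
    simp only [comp_apply, ofComplex_apply_of_im_nonpos hw', ofComplex_apply_of_im_nonpos hw]

theorem isQFn_slash_gRep {k : ℤ} {F : ℍ → ℂ} (hF : IsFormFn (GTp M p) k F) (i : Option (Fin p)) :
    IsQFn ((F ∣[k] gRep hp hpM hδ i) ∘ scale p) where
  periodic := by
    have hper := periodic_slash_gRep hp hpM hδ hF i
    intro w
    by_cases hw : 0 < w.im
    · have hw' : 0 < (w + ((1 : ℝ) : ℂ)).im := by simpa using hw
      simp only [comp_apply, ofComplex_apply_of_im_pos hw, ofComplex_apply_of_im_pos hw']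
      have h1 := hper (scale p ⟨w, hw⟩ : ℂ)
      simp only [comp_apply, ofComplex_apply] at h1
      refine Eq.trans ?_ h1
      refine congrArg _ ?_
      have hw2 : 0 < ((scale p ⟨w, hw⟩ : ℂ) + ((p : ℝ) : ℂ)).im := by
        rw [Complex.ofReal_natCast, Complex.add_im, Complex.natCast_im, add_zero]
        exact (scale p ⟨w, hw⟩).im_pos
      rw [ofComplex_apply_of_im_pos hw2]
      exact UpperHalfPlane.ext (by simp [mul_add])
    · have hw' : (w + ((1 : ℝ) : ℂ)).im ≤ 0 := by simpa using hw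
      simp only [comp_apply]
      rw [ofComplex_apply_of_im_nonpos hw', ofComplex_apply_of_im_nonpos (not_lt.mp hw)]
  mdiff := MF.mdiff_affH p 1 0 (hF.mdiff.slash k _)
  bdd := (hF.bdd _).comp_tendsto (MF.tendsto_affH p 1 0)

omit [NeZero p] hp hpM hδ in
theorem scale_surjective [NeZero p] : Function.Surjective (scale p) := fun τ =>
  ⟨affH 1 p 0 τ, UpperHalfPlane.ext (by
    rw [MF.coe_scale, MF.coe_affH]
    have hp : (p : ℂ) ≠ 0 := by exact_mod_cast NeZero.ne p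
    push_cast
    field_simp
    ring)⟩

/-- The `i`-th conjugate expansion, in `t = q^(1/p)`. -/
def conjExpansion (i : Option (Fin p)) : FormExp (GTp M p) where
  E k F := (F ∣[k] gRep hp hpM hδ i) ∘ scale p
  isQFn hF := isQFn_slash_gRep hp hpM hδ hF i
  map_mul k k' f g := by rw [ModularForm.mul_slash_SL2]; rfl
  map_add k f g := by rw [SlashAction.add_slash]; rfl
  map_const c := by
    show (Function.const ℍ c ∣[(0 : ℤ)] gRep hp hpM hδ i) ∘ scale p = _
    rw [ModularForm.is_invariant_const]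
    rfl
  ne_zero {k f} h h0 := X0.slash_ne_zero (k := k) h (gRep hp hpM hδ i)
    (scale_surjective.injective_comp_right
      (show (f ∣[k] gRep hp hpM hδ i) ∘ scale p = (0 : ℍ → ℂ) ∘ scale p from h0))

end SlR

/-- `qExpansion` of a translate by `b / p`. -/
theorem lq_translate [NeZero p] {f : ℍ → ℂ} (hf : IsQFn f) (b : ℤ) {ζ : ℂˣ}
    (hζ : (ζ : ℂ) = Complex.exp (2 * Real.pi * Complex.I * b / p))
    (hg : IsQFn (f ∘ affH 1 p b ∘ scale p)) :
    lq (f ∘ affH 1 p b ∘ scale p) = EichlerShimura.twist ζ (lq f) := by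
  have hq : ∀ τ : ℍ, Periodic.qParam 1 (affH 1 p b (scale p τ) : ℂ) =
      (ζ : ℂ) * Periodic.qParam 1 (τ : ℂ) := by
    intro τ
    have hp : (p : ℂ) ≠ 0 := by exact_mod_cast NeZero.ne p
    rw [Periodic.qParam, Periodic.qParam, hζ, ← Complex.exp_add, MF.coe_affH, MF.coe_scale]
    congr 1
    push_cast
    field_simp
    ring
  set c : ℕ → ℂ := fun m => (ζ : ℂ) ^ m * (qExpansion 1 f).coeff m with hc
  have hsum : ∀ τ : ℍ, HasSum (fun m => c m • Periodic.qParam 1 (τ : ℂ) ^ m)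
      ((f ∘ affH 1 p b ∘ scale p) τ) := by
    intro τ
    have h := hasSum_qExpansion one_pos hf.periodic hf.mdiff hf.bdd (affH 1 p b (scale p τ))
    rw [hq] at h
    simpa [hc, mul_pow, mul_assoc, mul_comm, mul_left_comm] using h
  ext n
  rw [EichlerShimura.twist_coeff]
  rcases le_or_gt 0 n with hn | hn
  · lift n to ℕ using hn
    rw [MF.lq_coeff_nat, MF.lq_coeff_nat, zpow_natCast, Units.val_pow_eq_pow_val]
    have h1 := (hasFPowerSeriesOnBall_cuspFunction one_pos hg.analyticAt hsum).hasFPowerSeriesAt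
    have h2 := (hasFPowerSeriesOnBall_cuspFunction one_pos hg.analyticAt
      (hasSum_qExpansion one_pos hg.periodic hg.mdiff hg.bdd)).hasFPowerSeriesAt
    have := congr_arg (FormalMultilinearSeries.coeff · n) (h1.eq_formalMultilinearSeries h2)
    simpa [hc] using this.symm
  · rw [MF.lq, MF.lq, ModularCurve.ofPowerSeries_coeff_of_neg _ hn,
      ModularCurve.ofPowerSeries_coeff_of_neg _ hn, mul_zero]

end Fermat.Agent.WeightOneGalois
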