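import Fermat.Agent.WeightOneGalois.Field.Ratio
import Fermat.Agent.WeightOneGalois.Forms.Weight4
import Fermat.Agent.WeightOneGalois.Hecke.Gens
import Fermat.Agent.WeightOneGalois.Hecke.Ratio

/-!
# The diamonds on generators

Slashing by an element of `Γ₀(M²)` permutes the generators `yFam` and fixes `j(q^d)`; hence the
diamond automorphisms of `Hecke/Field` preserve the rational structure.
-/

noncomputable section

namespace Fermat.Agent.WeightOneGalois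

open CongruenceSubgroup UpperHalfPlane Function ModularCurve
open Fermat.Agent.MF (IsFormFn IsQFn lq scale deltaFn E4fn ratioSub)
open scoped MatrixGroups ModularForm Manifold

variable {M : ℕ} [NeZero M] (hM : 4 ≤ M)
include hM

/-- The chosen family of weight four. -/
def eisG : ZMod M × ZMod M → ℍ → ℂ := (yForms M hM).choose

theorem isYFamily_eisG : Field.IsYFamily (eisG hM) :=
  ⟨(yForms M hM).choose_spec.1, (yForms M hM).choose_spec.2.1, (yForms M hM).choose_spec.2.2⟩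

/-- `G_(a,0)(Mτ)`. -/
def eisAt (a : ZMod M) : ℍ → ℂ := eisG hM (a, 0) ∘ scale M

theorem eisAt_slash (a : (ZMod M)ˣ) {σ : SL(2, ℤ)} (hσ : σ ∈ Gamma0 (M ^ 2)) :
    eisAt hM (a : ZMod M) ∣[(4 : ℤ)] σ = eisAt hM ((a : ZMod M) * (σ 0 0 : ZMod M)) :=
  (isYFamily_eisG hM).scale_slash a hσ

/-- The upper left entry of an element of `Γ₀(M²)`, as a unit. -/
def ulUnit {σ : SL(2, ℤ)} (hσ : σ ∈ Gamma0 (M ^ 2)) : (ZMod M)ˣ :=
  Units.mkOfMulEqOne _ _ (upperLeft_mul_lowerRight hσ)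

omit hM in
theorem coe_ulUnit {σ : SL(2, ℤ)} (hσ : σ ∈ Gamma0 (M ^ 2)) :
    (ulUnit hσ : ZMod M) = (σ 0 0 : ZMod M) := rfl

theorem isFormFn_eisAt (a : (ZMod M)ˣ) : IsFormFn (GT M) 4 (eisAt hM (a : ZMod M)) :=
  Field.comp_scale_GT ((isYFamily_eisG hM).isFormFn a)

theorem lq_eisAt (a : (ZMod M)ˣ) :
    lq (eisAt hM (a : ZMod M)) =
      HahnSeries.ofPowerSeries ℤ ℂ (gSer ℂ 1 ((a : ZMod M), 0)) :=
  (isYFamily_eisG hM).lq_scale (by omega) a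

/-- The numerator of `yFam`. -/
def numY (a : ZMod M) : ℍ → ℂ := eisAt hM a * ((E4fn ^ 2) ∘ scale M)

omit hM [NeZero M] in
theorem Gamma0_sq_le : Gamma0 (M ^ 2) ≤ Gamma0 M := MF.Gamma0_le_of_dvd (dvd_pow_self M two_ne_zero)

omit hM in
theorem isFormFn_E4sq_scale : IsFormFn (Gamma0 M) 8 ((E4fn ^ 2) ∘ scale M) :=
  ((MF.isFormFn_E4.pow 2).cast (by norm_num)).comp_scale_top M

theorem isFormFn_numY (a : (ZMod M)ˣ) : IsFormFn (GT M) 12 (numY hM (a : ZMod M)) :=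
  ((isFormFn_eisAt hM a).mul (isFormFn_E4sq_scale.mono fun _ h => Gamma0_sq_le h.1)).cast
    (by norm_num)

omit hM in
theorem isFormFn_denY : IsFormFn (GT M) 12 (MF.denN M) :=
  (MF.isFormFn_denN M).mono fun _ h => Gamma0_sq_le h.1

theorem yFam_mul_lq_denY (a : (ZMod M)ˣ) :
    yFam ℂ 1 ((a : ZMod M), 0) * lq (MF.denN M) = lq (numY hM (a : ZMod M)) := by
  rw [numY, MF.lq_mul ((isFormFn_eisAt hM a).isQFn (T_mem_GT M))
      (isFormFn_E4sq_scale (M := M)).isQFn0, lq_eisAt, MF.denN,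
    MF.lq_comp_scale MF.isFormFn_delta.isQFnTop,
    MF.lq_comp_scale (MF.isFormFn_E4.isQFnTop.pow 2), yFam, mul_assoc, ← map_mul (qExpand ℂ M),
    Field.weightFix_lq]

theorem yFam_mem_ratioSub (a : (ZMod M)ˣ) :
    yFam ℂ 1 ((a : ZMod M), 0) ∈ ratioSub (GT M) (T_mem_GT M) :=
  ⟨12, _, _, isFormFn_numY hM a, isFormFn_denY, MF.denN_ne_zero' M, yFam_mul_lq_denY hM a⟩

theorem numY_slash (a : (ZMod M)ˣ) {σ : SL(2, ℤ)} (hσ : σ ∈ Gamma0 (M ^ 2)) :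
    numY hM (a : ZMod M) ∣[(12 : ℤ)] σ = numY hM ((a * ulUnit hσ : (ZMod M)ˣ) : ZMod M) := by
  rw [numY, show (12 : ℤ) = 4 + 8 by norm_num, ModularForm.mul_slash_SL2, eisAt_slash hM a hσ,
    isFormFn_E4sq_scale.slash_eq σ (Gamma0_sq_le hσ), Units.val_mul, coe_ulUnit hσ]
  rfl

/-- A diamond permutes the generators `yFam`. -/
theorem diaExp_hom_yFam (a : (ZMod M)ˣ) {σ : SL(2, ℤ)} (hσ : σ ∈ Gamma0 (M ^ 2))
    (x : ratioSub (GT M) (T_mem_GT M)) (hx : (x : LaurentSeries ℂ) = yFam ℂ 1 ((a : ZMod M), 0)) :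
    (diaExp hσ).hom x = yFam ℂ 1 (((a * ulUnit hσ : (ZMod M)ˣ) : ZMod M), 0) := by
  rw [(diaExp hσ).hom_eq x (isFormFn_numY hM a) isFormFn_denY (MF.denN_ne_zero' M)
    (hx ▸ yFam_mul_lq_denY hM a)]
  show lq (numY hM (a : ZMod M) ∣[(12 : ℤ)] σ) / lq (MF.denN M ∣[(12 : ℤ)] σ) = _
  rw [numY_slash, (MF.isFormFn_denN M).slash_eq σ (Gamma0_sq_le hσ), ← yFam_mul_lq_denY,
    mul_div_assoc, div_self (MF.lq_denN_ne_zero M), mul_one]

omit hM [NeZero M] in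
/-- A diamond fixes `j(q^d)`. -/
theorem diaExp_hom_jd {d : ℕ} [NeZero d] (hd : d ∣ M ^ 2) {σ : SL(2, ℤ)}
    (hσ : σ ∈ Gamma0 (M ^ 2)) (x : ratioSub (GT M) (T_mem_GT M))
    (hx : (x : LaurentSeries ℂ) = qExpand ℂ d (jqModC ℂ)) :
    (diaExp hσ).hom x = qExpand ℂ d (jqModC ℂ) := by
  have hle : GT M ≤ Gamma0 d := fun γ hγ => MF.Gamma0_le_of_dvd hd hγ.1
  have hN := MF.isFormFn_numN d
  have hD := MF.isFormFn_denN d
  have hrel : qExpand ℂ d (jqModC ℂ) * lq (MF.denN d) = lq (MF.numN d) := (MF.lq_numN d).symm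
  rw [(diaExp hσ).hom_eq x (hN.mono hle) (hD.mono hle) (MF.denN_ne_zero' d) (hx ▸ hrel)]
  show lq (MF.numN d ∣[(12 : ℤ)] σ) / lq (MF.denN d ∣[(12 : ℤ)] σ) = _
  rw [hN.slash_eq σ (MF.Gamma0_le_of_dvd hd hσ), hD.slash_eq σ (MF.Gamma0_le_of_dvd hd hσ), ← hrel,
    mul_div_assoc, div_self (MF.lq_denN_ne_zero d), mul_one]

end Fermat.Agent.WeightOneGalois
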