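import Fermat.Prelude.Def_ModularCurve_ArithmeticGalois
import Fermat.Agent.WeightOneGalois.Hecke.Diamond

/-!
# The diamond automorphisms of the field of level `M`

For `σ ∈ Γ₀(M²)` the automorphism of `FYK M L` induced by slashing, compatible with Galois and
with the expansion of forms; used for the degeneracy map `betaY` and for `⟨p⟩`.
-/

noncomputable section

namespace Fermat.Agent.WeightOneGalois

open CongruenceSubgroup ModularCurve AlgebraicCurve
open Fermat.Agent.MF (ratioSub)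
open scoped MatrixGroups

theorem exists_hom_lift {A B C : Type*} [Field A] [Field B] [Field C] (e : A →+* C)
    (ι : B →+* C) (h : ∀ x, e x ∈ ι.fieldRange) : ∃ φ : A →+* B, ι.comp φ = e := by
  choose φ hφ using h
  exact ⟨{ toFun := φ
           map_one' := ι.injective (by rw [hφ, map_one, map_one])
           map_mul' := fun x y => ι.injective (by rw [map_mul ι, hφ, hφ, hφ, map_mul])
           map_zero' := ι.injective (by rw [hφ, map_zero, map_zero])
           map_add' := fun x y => ι.injective (by rw [map_add ι, hφ, hφ, hφ, map_add]) },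
    RingHom.ext hφ⟩

/-- Induction on the generators of an adjunction. -/
theorem adjoin_forall_mem {K E : Type*} [Field K] [Field E] [Algebra K E] {G : Set E}
    {F : IntermediateField K E} (hF : F = IntermediateField.adjoin K G) (S : Subfield F)
    (hC : ∀ a : K, algebraMap K F a ∈ S) (hG : ∀ x : F, (x : E) ∈ G → x ∈ S) (x : F) : x ∈ S := by
  subst hF
  have hle : Subfield.closure (Set.range (algebraMap K E) ∪ G) ≤
      S.map (algebraMap (IntermediateField.adjoin K G) E) := by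
    refine Subfield.closure_le.mpr ?_
    rintro y (⟨a, rfl⟩ | hy)
    · exact ⟨_, hC a, rfl⟩
    · exact ⟨⟨y, IntermediateField.subset_adjoin K G hy⟩, hG _ hy, rfl⟩
  obtain ⟨y, hy, hyx⟩ := Subfield.mem_map.mp (hle x.2)
  exact (show y = x from Subtype.ext hyx) ▸ hy

variable {M : ℕ} [NeZero M]

theorem genY_cases {K : Type*} [Field K] {x : LaurentSeries K} (hx : x ∈ genY M K) :
    (∃ (d : ℕ) (_ : NeZero d), d ∣ M ^ 2 ∧ x = qExpand K d (jqModC K)) ∨
      ∃ a : (ZMod M)ˣ, x = yFam K 1 ((a : ZMod M), 0) := by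
  rcases hx with hx | ⟨a, rfl⟩
  · exact Or.inl hx
  · exact Or.inr ⟨a, rfl⟩

theorem genY_subset_ratioSub (hM : 4 ≤ M) :
    genY M ℂ ⊆ (ratioSub (GT M) (T_mem_GT M) : Set (LaurentSeries ℂ)) := by
  intro x hx
  rcases genY_cases hx with ⟨d, hne, hd, rfl⟩ | ⟨a, rfl⟩
  · have hle : GT M ≤ Gamma0 d := fun γ hγ => MF.Gamma0_le_of_dvd hd hγ.1
    exact ⟨12, _, _, (MF.isFormFn_numN d).mono hle, (MF.isFormFn_denN d).mono hle,
      MF.denN_ne_zero' d, (MF.lq_numN d).symm⟩
  · exact yFam_mem_ratioSub hM a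

theorem FYres_complex_le (hM : 4 ≤ M) : FYres M ℂ ≤ ratioSub (GT M) (T_mem_GT M) := by
  rw [FYres_eq_adjoin, IntermediateField.adjoin_le_iff]
  exact genY_subset_ratioSub hM

theorem FYres_complex_eq (hC : FieldC) (hM : 4 ≤ M) :
    FYres M ℂ = ratioSub (GT M) (T_mem_GT M) := by
  refine SetLike.ext fun x => ?_
  rw [← laurentBaseChange_FY (by omega) ℂ]
  exact hC M hM x

section Embedded

variable (hM : 4 ≤ M) {L : Type*} [Field L] [Algebra ℚ L] (f : L →+* ℂ)
include hM

theorem FYK_eq_adjoin : FYK M L = IntermediateField.adjoin L (genY M L) := by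
  rw [FYK, laurentBaseChange_FY (by omega), FYres_eq_adjoin]

theorem mem_FYK_iff {x : LaurentSeries L} : x ∈ FYK M L ↔ x ∈ FYres M L := by
  rw [FYK, laurentBaseChange_FY (by omega)]

theorem genY_subset_FYK : genY M L ⊆ (FYK M L : Set (LaurentSeries L)) := fun x hx => by
  rw [SetLike.mem_coe, FYK_eq_adjoin hM]
  exact IntermediateField.subset_adjoin L _ hx

omit hM [Algebra ℚ L] in
theorem coeffMap_const (a : L) :
    coeffMap f (algebraMap L (LaurentSeries L) a) = algebraMap ℂ (LaurentSeries ℂ) (f a) := by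
  rw [algebraMap_laurentSeries_eq_single, coeffMap_single,
    algebraMap_laurentSeries_eq_single]

theorem coeffMap_mem_ratioSub (x : FYK M L) :
    coeffMap f (x : LaurentSeries L) ∈ ratioSub (GT M) (T_mem_GT M) :=
  FYres_complex_le hM (coeffMap_mem_FYres (by omega) f ((mem_FYK_iff hM).mp x.2))

/-- The field of level `M`, read as ratios of forms. -/
def toRatio : FYK M L →+* ratioSub (GT M) (T_mem_GT M) :=
  ((coeffMap f).comp (FYK M L).val.toRingHom).codRestrict
    (ratioSub (GT M) (T_mem_GT M)).toSubfield.toSubring (coeffMap_mem_ratioSub hM f)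

theorem coe_toRatio (x : FYK M L) :
    (toRatio hM f x : LaurentSeries ℂ) = coeffMap f (x : LaurentSeries L) := rfl

theorem toRatio_algebraMap (a : L) :
    toRatio hM f (algebraMap L (FYK M L) a) =
      algebraMap ℂ (ratioSub (GT M) (T_mem_GT M)) (f a) :=
  Subtype.ext (coeffMap_const f a)

/-- A diamond on a generator. -/
theorem diaExp_gen {σ : SL(2, ℤ)} (hσ : σ ∈ Gamma0 (M ^ 2)) (x : FYK M L)
    (hx : (x : LaurentSeries L) ∈ genY M L) :
    (∃ d, ∃ _ : NeZero d, d ∣ M ^ 2 ∧ (x : LaurentSeries L) = qExpand L d (jqModC L) ∧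
      (diaExp hσ).hom (toRatio hM f x) = coeffMap f (x : LaurentSeries L)) ∨
    ∃ a : (ZMod M)ˣ, (x : LaurentSeries L) = yFam L 1 ((a : ZMod M), 0) ∧
      (diaExp hσ).hom (toRatio hM f x) =
        coeffMap f (yFam L 1 (((a * ulUnit hσ : (ZMod M)ˣ) : ZMod M), 0)) := by
  rcases genY_cases hx with ⟨d, hne, hd, he⟩ | ⟨a, he⟩
  · refine Or.inl ⟨d, hne, hd, he, ?_⟩
    have he' : (toRatio hM f x : LaurentSeries ℂ) = qExpand ℂ d (jqModC ℂ) := by
      rw [coe_toRatio, he, coeffMap_qExpand, coeffMap_jqModC]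
    rw [diaExp_hom_jd hd hσ _ he', ← he', coe_toRatio]
  · refine Or.inr ⟨a, he, ?_⟩
    rw [coeffMap_yFam_one (by omega) f]
    refine diaExp_hom_yFam hM a hσ _ ?_
    rw [coe_toRatio, he, coeffMap_yFam_one (by omega) f]

theorem exists_diaHom {σ : SL(2, ℤ)} (hσ : σ ∈ Gamma0 (M ^ 2)) :
    ∃ φ : FYK M L →+* FYK M L, ∀ x,
      coeffMap f (φ x : LaurentSeries L) = (diaExp hσ).hom (toRatio hM f x) := by
  obtain ⟨φ, hφ⟩ := exists_hom_lift ((diaExp hσ).hom.comp (toRatio hM f))
    ((coeffMap f).comp (FYK M L).val.toRingHom) fun x => by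
      refine adjoin_forall_mem (FYK_eq_adjoin hM)
        ((((coeffMap f).comp (FYK M L).val.toRingHom).fieldRange).comap
          ((diaExp hσ).hom.comp (toRatio hM f))) (fun a => ?_) (fun y hy => ?_) x
      · refine ⟨algebraMap L (FYK M L) a, ?_⟩
        simp only [RingHom.comp_apply, toRatio_algebraMap]
        rw [FormExp.hom_algebraMap]
        exact (coeffMap_const f a).trans (MF.algebraMap_eq_C _)
      · rcases diaExp_gen hM f hσ y hy with ⟨d, hne, -, -, h⟩ | ⟨a, -, h⟩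
        · exact ⟨y, h.symm⟩
        · exact ⟨⟨_, genY_subset_FYK hM (Or.inr ⟨a * ulUnit hσ, rfl⟩)⟩, h.symm⟩
  exact ⟨φ, fun x => RingHom.congr_fun hφ x⟩

/-- The diamond endomorphism of the field of level `M` attached to `σ`. -/
def diaHom {σ : SL(2, ℤ)} (hσ : σ ∈ Gamma0 (M ^ 2)) : FYK M L →ₐ[L] FYK M L :=
  { (exists_diaHom hM f hσ).choose with
    commutes' := fun a => by
      refine Subtype.ext (EichlerShimura.coeffMap_injective f.injective ?_)
      show coeffMap f ((exists_diaHom hM f hσ).choose (algebraMap L (FYK M L) a) :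
        LaurentSeries L) = _
      rw [(exists_diaHom hM f hσ).choose_spec, toRatio_algebraMap, FormExp.hom_algebraMap]
      exact ((coeffMap_const f a).trans (MF.algebraMap_eq_C _)).symm }

theorem coeffMap_diaHom {σ : SL(2, ℤ)} (hσ : σ ∈ Gamma0 (M ^ 2)) (x : FYK M L) :
    coeffMap f (diaHom hM f hσ x : LaurentSeries L) = (diaExp hσ).hom (toRatio hM f x) :=
  (exists_diaHom hM f hσ).choose_spec x

theorem diaHom_gen {σ : SL(2, ℤ)} (hσ : σ ∈ Gamma0 (M ^ 2)) (x : FYK M L)
    (hx : (x : LaurentSeries L) ∈ genY M L) :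
    (∃ d, ∃ _ : NeZero d, d ∣ M ^ 2 ∧ (x : LaurentSeries L) = qExpand L d (jqModC L) ∧
      diaHom hM f hσ x = x) ∨
    ∃ a : (ZMod M)ˣ, (x : LaurentSeries L) = yFam L 1 ((a : ZMod M), 0) ∧
      (diaHom hM f hσ x : LaurentSeries L) =
        yFam L 1 (((a * ulUnit hσ : (ZMod M)ˣ) : ZMod M), 0) := by
  rcases diaExp_gen hM f hσ x hx with ⟨d, hne, hd, he, h⟩ | ⟨a, he, h⟩
  · exact Or.inl ⟨d, hne, hd, he, Subtype.ext (EichlerShimura.coeffMap_injective f.injective
      ((coeffMap_diaHom hM f hσ x).trans h))⟩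
  · exact Or.inr ⟨a, he, EichlerShimura.coeffMap_injective f.injective
      ((coeffMap_diaHom hM f hσ x).trans h)⟩

theorem FYK_ext {S : Type*} [Field S] {φ ψ : FYK M L →+* S}
    (hC : ∀ a : L, φ (algebraMap L (FYK M L) a) = ψ (algebraMap L (FYK M L) a))
    (hG : ∀ x : FYK M L, (x : LaurentSeries L) ∈ genY M L → φ x = ψ x) : φ = ψ :=
  RingHom.ext fun x => adjoin_forall_mem (FYK_eq_adjoin hM) (φ.eqLocusField ψ) hC hG x

theorem diaHom_fix_j {σ : SL(2, ℤ)} (hσ : σ ∈ Gamma0 (M ^ 2)) (x : FYK M L)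
    (hx : (x : LaurentSeries L) = jqModC L) : diaHom hM f hσ x = x := by
  have he : (toRatio hM f x : LaurentSeries ℂ) = qExpand ℂ 1 (jqModC ℂ) := by
    rw [coe_toRatio, hx, coeffMap_jqModC, qExpand_one_apply]
  refine Subtype.ext (EichlerShimura.coeffMap_injective f.injective ?_)
  rw [coeffMap_diaHom, diaExp_hom_jd (one_dvd _) hσ _ he, hx, coeffMap_jqModC, qExpand_one_apply]

theorem diaHom_comp {σ τ : SL(2, ℤ)} (hσ : σ ∈ Gamma0 (M ^ 2)) (hτ : τ ∈ Gamma0 (M ^ 2))
    (h : ulUnit hσ * ulUnit hτ = 1) :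
    (diaHom hM f hσ).comp (diaHom hM f hτ) = AlgHom.id L (FYK M L) := by
  refine AlgHom.coe_ringHom_injective (FYK_ext hM (fun a => ?_) fun x hx => ?_)
  · exact AlgHom.commutes ((diaHom hM f hσ).comp (diaHom hM f hτ)) a
  · show diaHom hM f hσ (diaHom hM f hτ x) = x
    rcases diaHom_gen hM f hτ x hx with ⟨d, hne, hd, he, h1⟩ | ⟨a, he, h1⟩
    · rw [h1]
      rcases diaHom_gen hM f hσ x hx with ⟨-, -, -, -, h2⟩ | ⟨a, he', h2⟩
      · exact h2
      · refine Subtype.ext (EichlerShimura.coeffMap_injective f.injective ?_)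
        rw [coeffMap_diaHom]
        have he2 : (toRatio hM f x : LaurentSeries ℂ) = qExpand ℂ d (jqModC ℂ) := by
          rw [coe_toRatio, he, coeffMap_qExpand, coeffMap_jqModC]
        rw [diaExp_hom_jd hd hσ _ he2, ← he2, coe_toRatio]
    · have hmem : (diaHom hM f hτ x : LaurentSeries L) ∈ genY M L := Or.inr ⟨_, h1.symm⟩
      refine Subtype.ext (EichlerShimura.coeffMap_injective f.injective ?_)
      have he2 : (toRatio hM f (diaHom hM f hτ x) : LaurentSeries ℂ) =
          yFam ℂ 1 (((a * ulUnit hτ : (ZMod M)ˣ) : ZMod M), 0) := by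
        rw [coe_toRatio, h1, coeffMap_yFam_one (by omega) f]
      rw [coeffMap_diaHom, diaExp_hom_yFam hM (a * ulUnit hτ) hσ _ he2, mul_assoc,
        mul_comm (ulUnit hτ), h, mul_one, he, coeffMap_yFam_one (by omega) f]

omit hM in
theorem ulUnit_mul_inv {σ : SL(2, ℤ)} (hσ : σ ∈ Gamma0 (M ^ 2)) :
    ulUnit hσ * ulUnit (inv_mem hσ) = 1 := by
  refine Units.ext ?_
  rw [Units.val_mul, coe_ulUnit, coe_ulUnit, Units.val_one,
    show ((σ⁻¹ : SL(2, ℤ)) 0 0) = σ 1 1 by
      simp [Matrix.SpecialLinearGroup.coe_inv, Matrix.adjugate_fin_two]]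
  exact upperLeft_mul_lowerRight hσ

/-- The diamond automorphism. -/
def diaEquiv {σ : SL(2, ℤ)} (hσ : σ ∈ Gamma0 (M ^ 2)) : FYK M L ≃ₐ[L] FYK M L :=
  AlgEquiv.ofAlgHom (diaHom hM f hσ) (diaHom hM f (inv_mem hσ))
    (diaHom_comp hM f hσ (inv_mem hσ) (ulUnit_mul_inv hσ))
    (diaHom_comp hM f (inv_mem hσ) hσ (by rw [mul_comm]; exact ulUnit_mul_inv hσ))

theorem diaEquiv_galois {σ : SL(2, ℤ)} (hσ : σ ∈ Gamma0 (M ^ 2)) (g : L ≃ₐ[ℚ] L) (x : FYK M L) :
    diaEquiv hM f hσ (arithmeticGalois (FY M) g • x) =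
      arithmeticGalois (FY M) g • diaEquiv hM f hσ x := by
  have hfix : ∀ {y : FYK M L}, (y : LaurentSeries L) ∈ genY M L →
      arithmeticGalois (FY M) g • y = y := fun {y} hy => by
    refine Subtype.ext ?_
    rw [coe_arithmeticGalois_smul]
    rcases genY_cases hy with ⟨d, hne, hd, he⟩ | ⟨a, he⟩
    · rw [he, coeffMap_qExpand, coeffMap_jqModC]
    · rw [he, coeffMap_yFam_one (by omega)]
  have key : ((diaEquiv hM f hσ : FYK M L →+* FYK M L)).comp
      ((arithmeticRingAut (FY M) g : FYK M L →+* FYK M L)) =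
      ((arithmeticRingAut (FY M) g : FYK M L →+* FYK M L)).comp
        (diaEquiv hM f hσ : FYK M L →+* FYK M L) := by
    refine FYK_ext hM (fun a => ?_) fun y hy => ?_
    · simp only [RingHom.comp_apply, RingHom.coe_coe, arithmeticRingAut_algebraMap,
        AlgEquiv.commutes]
    · show diaEquiv hM f hσ (arithmeticGalois (FY M) g • y) =
        arithmeticGalois (FY M) g • diaEquiv hM f hσ y
      rw [hfix hy]
      refine (hfix ?_).symm
      rcases diaHom_gen hM f hσ y hy with ⟨-, -, -, -, h2⟩ | ⟨a, -, h2⟩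
      · rw [show diaEquiv hM f hσ y = diaHom hM f hσ y from rfl, h2]; exact hy
      · exact Or.inr ⟨_, h2.symm⟩
  exact RingHom.congr_fun key x

end Embedded

end Fermat.Agent.WeightOneGalois
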