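import Fermat.Agent.EichlerShimura.Riemann
import Fermat.Agent.Gal.Basic
import Fermat.Agent.Red.Existence
import Fermat.Agent.Red.Modular
import Fermat.Agent.WeightOneGalois.Hecke.Field
import Fermat.Agent.WeightOneGalois.Hecke.Inputs

/-!
# The Gauss reduction of the field of level `M` at a prime `p ∤ M`

Functions with `A`-integral expansion reduce to the field over the residue field; this gives a
reduction map on places which is injective on torsion prime to `p`, the setting of the congruence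
relation.
-/

noncomputable section

namespace Fermat.Agent.WeightOneGalois

open ModularCurve AlgebraicCurve IntermediateField
open Fermat.Agent.Red (intFns intRed coe_intRed algebraMap_mem_intFns intRed_algebraMap)

section Generic

variable {L k : Type*} [Field L] [Field k] (A : ValuationSubring L) (π : A →+* k)
  (F : IntermediateField L (LaurentSeries L)) (Fk : IntermediateField k (LaurentSeries k))

variable {A π F Fk}

/-- A constant between two series with reductions is integral. -/
theorem exists_const_series (hπ : Function.Surjective π) {c : L} {P Q : LaurentSeries A}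
    (h : algebraMap L (LaurentSeries L) c * coeffMap A.subtype P = coeffMap A.subtype Q)
    (hP : coeffMap π P ≠ 0) :
    ∃ a : A, (a : L) = c ∧ algebraMap k (LaurentSeries k) (π a) * coeffMap π P = coeffMap π Q := by
  obtain ⟨n, hn⟩ : ∃ n, π (P.coeff n) ≠ 0 := by
    by_contra hcon
    push Not at hcon
    exact hP (HahnSeries.ext (funext fun n => by simpa using hcon n))
  have hcoef : ∀ m, c * (P.coeff m : L) = (Q.coeff m : L) := fun m => by
    have h1 := congrArg (fun s : LaurentSeries L => s.coeff m) h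
    simpa [algebraMap_laurentSeries_eq_single, HahnSeries.coeff_single_mul] using h1
  have hn0 : (P.coeff n : L) ≠ 0 := fun h0 => hn (by
    rw [show P.coeff n = 0 from Subtype.ext h0, map_zero])
  have hc : c ∈ A := by
    rw [show c = (Q.coeff n : L) * (P.coeff n : L)⁻¹ by rw [← hcoef n, mul_inv_cancel_right₀ hn0]]
    exact A.mul_mem _ _ (Q.coeff n).2 (Red.inv_mem_of_pi_ne_zero hπ hn)
  refine ⟨⟨c, hc⟩, rfl, HahnSeries.ext (funext fun m => ?_)⟩
  rw [algebraMap_laurentSeries_eq_single, HahnSeries.coeff_single_mul, sub_zero, coeffMap_coeff,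
    coeffMap_coeff, ← map_mul]
  exact congrArg π (Subtype.ext (hcoef m))

end Generic

section Curve

variable {M : ℕ} [NeZero M] (hM : 4 ≤ M) (hD : FieldDegree)
include hM hD

/-- The field of level `M` over an algebraically closed field is a function field. -/
theorem isFunctionField_of_eq_FYres {k : Type} [Field k] [IsAlgClosed k] (hk : (M : k) ≠ 0)
    {B : IntermediateField k (LaurentSeries k)} (hB : B = FYres M k) :
    FF.IsFunctionField k B := by
  subst hB
  -- supplied by hand: the search for it is slow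
  have := Module.Free.of_divisionRing (k⟮(⟨jqModC k, jqModC_mem_FYres k⟩ : FYres M k)⟯) (FYres M k)
  refine ⟨⟨⟨_, jqModC_mem_FYres k⟩,
    Red.transcendental_subtype _ _ (MF.transcendental_jqModC (K := k)), ?_⟩⟩
  refine Module.finite_of_finrank_pos ?_
  rw [Red.finrank_adjoin_eq_relfinrank]
  show 0 < relfinrank (k⟮jqModC k⟯) (FYres M k)
  rw [hD M hM k hk]
  exact Nat.pos_of_ne_zero Subgroup.FiniteIndex.index_ne_zero

theorem isFunctionField_FYK {K : Type} [Field K] [Algebra ℚ K] [IsAlgClosed K] :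
    FF.IsFunctionField K (FYK M K) :=
  haveI : CharZero K := charZero_of_injective_algebraMap (algebraMap ℚ K).injective
  isFunctionField_of_eq_FYres hM hD (Nat.cast_ne_zero.mpr (NeZero.ne M))
    (laurentBaseChange_FY (by omega) K)

variable {p : ℕ} {A : ValuationSubring (AlgebraicClosure ℚ)}

local notation "Qbar" => AlgebraicClosure ℚ
local notation "𝕜" => IsLocalRing.ResidueField A
local notation "π" => IsLocalRing.residue A

omit hD in
/-- `j` as an integral function. -/
def jInt : intFns A π (FYK M Qbar) (FYres M 𝕜) :=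
  ⟨⟨jqModC Qbar, (mem_FYK_iff hM).mpr (jqModC_mem_FYres Qbar)⟩, jqModC A,
    coeffMap_jqModC _, by rw [coeffMap_jqModC]; exact jqModC_mem_FYres _⟩

omit hD in
theorem coe_intRed_jInt :
    (intRed A π (FYK M Qbar) (FYres M 𝕜) (jInt hM) : LaurentSeries 𝕜) = jqModC 𝕜 := by
  rw [coe_intRed (y := jqModC A) (coeffMap_jqModC _), coeffMap_jqModC]

omit hD in
theorem transcendental_intRed_jInt :
    Transcendental 𝕜 (intRed A π (FYK M Qbar) (FYres M 𝕜) (jInt hM)) := fun hal =>
  (MF.transcendental_jqModC (K := 𝕜)) (coe_intRed_jInt hM (A := A) ▸ hal.algHom (FYres M 𝕜).val)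

omit hD in
/-- The generators lift. -/
theorem exists_lift_genY {y : LaurentSeries 𝕜} (hy : y ∈ genY M 𝕜) :
    ∃ f : intFns A π (FYK M Qbar) (FYres M 𝕜),
      (intRed A π (FYK M Qbar) (FYres M 𝕜) f : LaurentSeries 𝕜) = y := by
  have hmem : ∀ z ∈ genY M 𝕜, z ∈ FYres M 𝕜 := fun z hz => by
    rw [FYres_eq_adjoin]; exact IntermediateField.subset_adjoin _ _ hz
  rcases genY_cases hy with ⟨d, hne, hd, he⟩ | ⟨a, he⟩
  · have := hne
    have h1 : coeffMap A.subtype (qExpand A d (jqModC A)) = qExpand Qbar d (jqModC Qbar) := by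
      rw [coeffMap_qExpand, coeffMap_jqModC]
    have h2 : coeffMap π (qExpand A d (jqModC A)) = y := by
      rw [coeffMap_qExpand, coeffMap_jqModC, he]
    refine ⟨⟨⟨qExpand Qbar d (jqModC Qbar), genY_subset_FYK hM (Or.inl ⟨d, hne, hd, rfl⟩)⟩,
      _, h1, by rw [h2]; exact hmem y hy⟩, ?_⟩
    rw [coe_intRed (y := qExpand A d (jqModC A)) h1, h2]
  · have h1 := coeffMap_yFam_one (show M ≠ 1 by omega) A.subtype a
    have h2 : coeffMap π (yFam A 1 ((a : ZMod M), (0 : ZMod M))) = y :=
      (coeffMap_yFam_one (by omega) π a).trans he.symm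
    refine ⟨⟨⟨yFam Qbar 1 ((a : ZMod M), 0), genY_subset_FYK hM (Or.inr ⟨a, rfl⟩)⟩,
      _, h1, by rw [h2]; exact hmem y hy⟩, ?_⟩
    rw [coe_intRed (y := yFam A 1 ((a : ZMod M), (0 : ZMod M))) h1, h2]

variable (hp : p.Prime) (hpM : ¬ p ∣ M) (hA : A.LiesOverPrime p)
include hp hpM hA

theorem finrank_over_jred :
    Module.finrank (𝕜⟮intRed A π (FYK M Qbar) (FYres M 𝕜) (jInt hM)⟯) (FYres M 𝕜) =
      (GT M).index := by
  have := Red.isAlgClosed_residueField A
  rw [Red.finrank_adjoin_eq_relfinrank, coe_intRed_jInt]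
  exact hD M hM 𝕜 (Red.natCast_residue_ne_zero A hp hA hpM)

theorem exists_basisY :
    ∃ b : Fin (Module.finrank (𝕜⟮intRed A π (FYK M Qbar) (FYres M 𝕜) (jInt hM)⟯) (FYres M 𝕜)) →
        intFns A π (FYK M Qbar) (FYres M 𝕜),
      LinearIndependent (𝕜⟮intRed A π (FYK M Qbar) (FYres M 𝕜) (jInt hM)⟯)
        fun i => intRed A π (FYK M Qbar) (FYres M 𝕜) (b i) := by
  have := Module.Free.of_divisionRing (𝕜⟮intRed A π (FYK M Qbar) (FYres M 𝕜) (jInt hM)⟯)
    (FYres M 𝕜)
  have : FiniteDimensional (𝕜⟮intRed A π (FYK M Qbar) (FYres M 𝕜) (jInt hM)⟯) (FYres M 𝕜) :=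
    Module.finite_of_finrank_pos (by
      rw [finrank_over_jred hM hD hp hpM hA]
      exact Nat.pos_of_ne_zero Subgroup.FiniteIndex.index_ne_zero)
  exact Red.exists_basis_adjoin (genY M 𝕜) (FYres M 𝕜) (FYres_eq_adjoin M 𝕜) _ _
    (fun c => by
      obtain ⟨a, rfl⟩ := IsLocalRing.residue_surjective c
      exact ⟨⟨_, algebraMap_mem_intFns a⟩, intRed_algebraMap a⟩)
    (fun y hy => exists_lift_genY hM hy)

/-- The Gauss reduction of the field of level `M`. -/
def gaussY : Red.GaussData A π (FYK M Qbar) (FYres M 𝕜) where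
  B := intFns A π (FYK M Qbar) (FYres M 𝕜)
  ρ := intRed A π (FYK M Qbar) (FYres M 𝕜)
  algebraMap_mem := algebraMap_mem_intFns
  ρ_algebraMap := intRed_algebraMap
  surj_pi := IsLocalRing.residue_surjective
  x := jInt hM
  transcendental := transcendental_intRed_jInt hM
  d := Module.finrank (𝕜⟮intRed A π (FYK M Qbar) (FYres M 𝕜) (jInt hM)⟯) (FYres M 𝕜)
  d_pos := by
    rw [finrank_over_jred hM hD hp hpM hA]
    exact Nat.pos_of_ne_zero Subgroup.FiniteIndex.index_ne_zero
  b := (exists_basisY hM hD hp hpM hA).choose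
  linearIndependent := (exists_basisY hM hD hp hpM hA).choose_spec
  finrank_eq := by
    rw [finrank_over_jred hM hD hp hpM hA, Red.finrank_adjoin_eq_relfinrank,
      show (((jInt hM : intFns A π (FYK M Qbar) (FYres M 𝕜)) : FYK M Qbar) : LaurentSeries Qbar) =
        jqModC Qbar from rfl,
      show FYK M Qbar = FYres M Qbar from laurentBaseChange_FY (by omega) Qbar]
    exact hD M hM Qbar (Nat.cast_ne_zero.mpr (NeZero.ne M))

omit hp hpM hA hD in
/-- Divisors of integral functions with nonzero reduction. -/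
def intPrincipal : Set (Divisor Qbar (FYK M Qbar)) :=
  {E | ∃ y : intFns A π (FYK M Qbar) (FYres M 𝕜), intRed A π (FYK M Qbar) (FYres M 𝕜) y ≠ 0 ∧
    ∀ P, E P = P.ord (y : FYK M Qbar)}

theorem principal_le_intPrincipal :
    Divisor.principal (K := Qbar) (F := FYK M Qbar) ≤
      AddSubgroup.closure (intPrincipal (M := M) (A := A)) := by
  have := Red.isAlgClosed_residueField A
  have := isFunctionField_FYK (K := Qbar) hM hD
  have : FF.IsFunctionField 𝕜 (FYres M 𝕜) :=
    isFunctionField_of_eq_FYres hM hD (Red.natCast_residue_ne_zero A hp hA hpM) rfl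
  rintro D ⟨f, hf, hDf⟩
  obtain ⟨y, z, hy, hz, hord⟩ := (gaussY hM hD hp hpM hA).principal_le_closure hf
  have e : D = FF.divOf (y : FYK M Qbar) - FF.divOf (z : FYK M Qbar) := Finsupp.ext fun v => by
    rw [Finsupp.sub_apply, FF.divOf_apply, FF.divOf_apply, hDf, hord]
  rw [e]
  exact AddSubgroup.sub_mem _
    (AddSubgroup.subset_closure ⟨y, hy, FF.divOf_apply _⟩)
    (AddSubgroup.subset_closure ⟨z, hz, FF.divOf_apply _⟩)

omit hp hpM hA hD in
/-- `r` is compatible with divisors of integral functions. -/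
def IsRedY (r : Place Qbar (FYK M Qbar) → Place 𝕜 (FYres M 𝕜)) : Prop :=
  ∀ y : intFns A π (FYK M Qbar) (FYres M 𝕜), intRed A π (FYK M Qbar) (FYres M 𝕜) y ≠ 0 →
    ∀ D : Divisor Qbar (FYK M Qbar), (∀ v, D v = v.ord (y : FYK M Qbar)) →
      ∀ q, Finsupp.mapDomain r D q = q.ord (intRed A π (FYK M Qbar) (FYres M 𝕜) y)

variable (hE : NoEll M) (hG : GenusY)
include hE hG

/-- The reduction of places. -/
theorem exists_placeY : ∃ r : Place Qbar (FYK M Qbar) → Place 𝕜 (FYres M 𝕜), IsRedY r := by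
  have := Red.isAlgClosed_residueField A
  have := isFunctionField_FYK (K := Qbar) hM hD
  have : FF.IsFunctionField 𝕜 (FYres M 𝕜) :=
    isFunctionField_of_eq_FYres hM hD (Red.natCast_residue_ne_zero A hp hA hpM) rfl
  exact (gaussY hM hD hp hpM hA).exists_placeMap rfl (hG M p hM hE hp hpM A hA)

omit hE hG in
/-- The divisor of a function written as a ratio of series with nonzero reductions. -/
theorem exists_red_of_series {r : Place Qbar (FYK M Qbar) → Place 𝕜 (FYres M 𝕜)}
    (hr : IsRedY r)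
    (f : FYK M Qbar) {z u : LaurentSeries A} (hz : coeffMap π z ≠ 0) (hu : coeffMap π u ≠ 0)
    (h : (f : LaurentSeries Qbar) * coeffMap A.subtype z = coeffMap A.subtype u) :
    f ≠ 0 ∧ ∃ g : FYres M 𝕜, g ≠ 0 ∧ (g : LaurentSeries 𝕜) * coeffMap π z = coeffMap π u ∧
      ∀ D : Divisor Qbar (FYK M Qbar), (∀ v, D v = v.ord f) →
        ∀ q, Finsupp.mapDomain r D q = q.ord g := by
  have := Red.isAlgClosed_residueField A
  have := isFunctionField_FYK (K := Qbar) hM hD
  have : FF.IsFunctionField 𝕜 (FYres M 𝕜) :=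
    isFunctionField_of_eq_FYres hM hD (Red.natCast_residue_ne_zero A hp hA hpM) rfl
  set G := gaussY hM hD hp hpM hA
  have hf : f ≠ 0 := by
    rintro rfl
    rw [ZeroMemClass.coe_zero, zero_mul, eq_comm,
      map_eq_zero_iff _ (EichlerShimura.coeffMap_injective
        (f := A.subtype) A.subtype_injective)] at h
    exact hu (by rw [h, map_zero])
  obtain ⟨c, v, hv, hfv⟩ := G.scale f hf
  obtain ⟨a, b, hb, hab⟩ := G.mem_O.mp v.2
  rw [G.red_eq hb hab] at hv
  have ha : G.ρ a ≠ 0 := (div_ne_zero_iff.mp hv).1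
  obtain ⟨ya, hya, -⟩ := a.2
  obtain ⟨yb, hyb, -⟩ := b.2
  have hra : (G.ρ a : LaurentSeries 𝕜) = coeffMap π ya := coe_intRed hya
  have hrb : (G.ρ b : LaurentSeries 𝕜) = coeffMap π yb := coe_intRed hyb
  have hfb : (f : LaurentSeries Qbar) * coeffMap A.subtype yb =
      algebraMap Qbar (LaurentSeries Qbar) c * coeffMap A.subtype ya := by
    have h1 : f * (b : FYK M Qbar) = algebraMap Qbar (FYK M Qbar) c * (a : FYK M Qbar) := by
      rw [hfv, mul_assoc, hab]
    rw [hya, hyb]
    exact congrArg Subtype.val h1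
  have hP : coeffMap π (ya * z) ≠ 0 := by
    rw [map_mul, ← hra]
    exact mul_ne_zero (fun h0 => ha (Subtype.ext h0)) hz
  obtain ⟨c₀, hc₀, hcπ⟩ := exists_const_series (A := A) IsLocalRing.residue_surjective
    (c := c) (P := ya * z) (Q := u * yb)
    (by rw [map_mul, map_mul, ← mul_assoc, ← hfb, mul_right_comm, h]) hP
  have hb' : (G.ρ b : LaurentSeries 𝕜) ≠ 0 := fun h0 => hb (Subtype.ext h0)
  have hc0 : π c₀ ≠ 0 := fun h0 => by
    rw [h0, map_zero, zero_mul, eq_comm, map_mul, mul_eq_zero, ← hrb] at hcπ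
    exact hcπ.elim hu hb'
  refine ⟨hf, algebraMap 𝕜 (FYres M 𝕜) (π c₀) * (G.ρ a / G.ρ b),
    mul_ne_zero ((_root_.map_ne_zero _).mpr hc0) (div_ne_zero ha hb), ?_, fun D hD' q => ?_⟩
  · show algebraMap 𝕜 (LaurentSeries 𝕜) (π c₀) *
      ((G.ρ a : LaurentSeries 𝕜) / (G.ρ b : LaurentSeries 𝕜)) * coeffMap π z = coeffMap π u
    rw [map_mul, map_mul, ← mul_assoc, ← hra, ← hrb] at hcπ
    field_simp
    linear_combination hcπ
  · have ha0 : (a : FYK M Qbar) ≠ 0 := fun h0 => ha (by
      rw [show a = 0 from Subtype.ext h0, map_zero])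
    have hb0 : (b : FYK M Qbar) ≠ 0 := fun h0 => hb (by
      rw [show b = 0 from Subtype.ext h0, map_zero])
    have hc : c ≠ 0 := by rintro rfl; simp [hfv] at hf
    have e : D = FF.divOf (a : FYK M Qbar) - FF.divOf (b : FYK M Qbar) := Finsupp.ext fun w => by
      rw [Finsupp.sub_apply, FF.divOf_apply, FF.divOf_apply, hD', hfv, Red.ord_algebraMap_mul w hc,
        show (v : FYK M Qbar) = (a : FYK M Qbar) / (b : FYK M Qbar) by
          rw [eq_div_iff hb0]; exact hab, Red.ord_div w ha0 hb0]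
    rw [e, Finsupp.mapDomain_sub, Finsupp.sub_apply, hr a ha _ (FF.divOf_apply _),
      hr b hb _ (FF.divOf_apply _), Red.ord_algebraMap_mul q hc0, Red.ord_div q ha hb]
    rfl

/-- Reduction is injective on torsion prime to `p`. -/
theorem principal_of_torsionY {r : Place Qbar (FYK M Qbar) → Place 𝕜 (FYres M 𝕜)}
    (hr : IsRedY r)
    {m : ℕ} (hm : ¬ p ∣ m) {D : Divisor Qbar (FYK M Qbar)} (hD0 : Divisor.degree D = 0)
    (hmD : m • D ∈ Divisor.principal (K := Qbar) (F := FYK M Qbar))
    (hrD : Finsupp.mapDomain r D = 0) :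
    D ∈ Divisor.principal (K := Qbar) (F := FYK M Qbar) := by
  have := Red.isAlgClosed_residueField A
  have := isFunctionField_FYK (K := Qbar) hM hD
  have : FF.IsFunctionField 𝕜 (FYres M 𝕜) :=
    isFunctionField_of_eq_FYres hM hD (Red.natCast_residue_ne_zero A hp hA hpM) rfl
  exact (gaussY hM hD hp hpM hA).principal_of_torsion Red.RR.ofFF Red.RR.ofFF
    (hG M p hM hE hp hpM A hA) r hr (Red.natCast_residue_ne_zero A hp hA hm) hD0 hmD
    (hrD ▸ zero_mem _)

end Curve

end Fermat.Agent.WeightOneGalois
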