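import Fermat.Agent.WeightOneGalois.Hecke.Relation

/-!
# The torsion inputs

Proves `TorsionInputs` from the field, monodromy and genus inputs: the `ℓ`-torsion of the Jacobian
of `GT M` with Galois, `T_p`, diamonds and the congruence relation of Eichler and Shimura.
-/

noncomputable section

namespace Fermat.Agent.WeightOneGalois

open CongruenceSubgroup ModularCurve AlgebraicCurve
open scoped MatrixGroups

local notation "Γℚ" => (AlgebraicClosure ℚ ≃ₐ[ℚ] AlgebraicClosure ℚ)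
local notation "Qbar" => AlgebraicClosure ℚ
local notation "fQ" => (complexEmbedding : AlgebraicClosure ℚ →+* ℂ)

variable {M ℓ : ℕ} [NeZero M] [NeZero ℓ]

theorem nsmul_smul_eq_zero {G X : Type*} [Monoid G] [AddCommMonoid X] [DistribMulAction G X]
    (g : G) {n : ℕ} {x : X} (h : n • x = 0) : n • (g • x) = 0 := by
  exact (((DistribSMul.toAddMonoidHom X g).map_nsmul n x).symm.trans
    (congrArg _ h)).trans (smul_zero g)

/-- The congruence relation cancels in the group of divisors. -/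
theorem smul_relation_eq_zero {G X : Type*} [Group G] [AddCommGroup X] [DistribMulAction G X]
    (g : G) (p : ℕ) (D T : X) : g • g • D - g • (g • D + p • (g⁻¹ • T)) + p • T = 0 := by
  rw [smul_add, show g • (p • (g⁻¹ • T)) = p • (g • (g⁻¹ • T)) from
    map_nsmul (DistribSMul.toAddMonoidHom X g) p _, smul_inv_smul]
  abel

theorem galoisY_mk (σ : Γℚ) (D : Divisor.degZero (K := Qbar) (F := FYK M Qbar)) :
    σ • Pic0.mk D = Pic0.mk (SemilinearAut.degZeroSMulHom (arithmeticGalois (FY M) σ) D) := by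
  rw [galois_smul_pic0_def, SemilinearAut.pic0_smul_mk]

omit [NeZero M] [NeZero ℓ] in
theorem redLat_diaS {σ : SL(2, ℤ)} (hσ : σ ∈ Gamma0 (M ^ 2)) (v : Lat M) :
    redLat M ℓ (diaS hσ v) = (redLat M ℓ v).comp (MonoidHom.toAdditive (diaConj hσ)) :=
  AddMonoidHom.ext fun _ => rfl

omit [NeZero ℓ] in
/-- A torsion class prime to `p` with zero reduction is zero. -/
theorem classY_eq_zero_of_red (hM : 4 ≤ M) (hD : FieldDegree) (hE : NoEll M) (hG : GenusY)
    {p : ℕ}
    (hp : p.Prime) (hpM : ¬ p ∣ M) {A : ValuationSubring (AlgebraicClosure ℚ)}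
    (hA : A.LiesOverPrime p)
    {r : Place (AlgebraicClosure ℚ) (FYK M (AlgebraicClosure ℚ)) →
      Place (IsLocalRing.ResidueField A) (FYres M (IsLocalRing.ResidueField A))}
    (hr : IsRedY r) (hpℓ : ¬ p ∣ ℓ)
    (E : Divisor.degZero (K := Qbar) (F := FYK M Qbar)) (hℓE : ℓ • Pic0.mk E = 0)
    (h0 : Finsupp.mapDomain r (E : Divisor Qbar (FYK M Qbar)) = 0) : Pic0.mk E = 0 := by
  refine (QuotientAddGroup.eq_zero_iff E).mpr (AddSubgroup.mem_addSubgroupOf.mpr ?_)
  have hmE := AddSubgroup.mem_addSubgroupOf.mp ((QuotientAddGroup.eq_zero_iff (ℓ • E)).mp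
    (show ((ℓ • E : Divisor.degZero (K := Qbar) (F := FYK M Qbar)) : Pic0 Qbar (FYK M Qbar)) = 0
      from hℓE))
  exact principal_of_torsionY hM hD hp hpM hA hE hG hr hpℓ E.2 hmE h0

omit [NeZero ℓ] in
/-- The congruence relation on a torsion class. -/
theorem frobenius_relation (hM : 4 ≤ M) (hC : FieldC) (hD : FieldDegree) (hE : NoEll M)
    (hG : GenusY)
    {p : ℕ} [NeZero p] (hp : p.Prime) (hpM : ¬ p ∣ M) {δ : SL(2, ℤ)} (hδ : IsDiaRep M p δ)
    [FF.IsFunctionField (AlgebraicClosure ℚ) (FYK M (AlgebraicClosure ℚ))]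
    [FF.IsFunctionField (AlgebraicClosure ℚ) (FYP M p (AlgebraicClosure ℚ))]
    (hpℓ : ¬ p ∣ ℓ) {A : ValuationSubring (AlgebraicClosure ℚ)} (hA : A.LiesOverPrime p)
    {σ : Γℚ} (hσ : A.IsFrobeniusAt σ p) (D : Divisor.degZero (K := Qbar) (F := FYK M Qbar))
    (hx : ℓ • Pic0.mk D = 0) :
    σ • σ • Pic0.mk D - σ • corrY hM hδ (Pic0.mk D) + p • (diaSL hM hδ.1 • Pic0.mk D) = 0 := by
  obtain ⟨r, hr⟩ := exists_placeY hM hD hp hpM hA hE hG
  have hTx : ℓ • corrY hM hδ (Pic0.mk D) = 0 := by rw [← map_nsmul, hx, map_zero]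
  have htor : ℓ • (σ • σ • Pic0.mk D - σ • corrY hM hδ (Pic0.mk D) +
      p • (diaSL hM hδ.1 • Pic0.mk D)) = 0 := by
    have h2 : ℓ • (p • (diaSL hM hδ.1 • Pic0.mk D)) = 0 := by
      rw [← mul_nsmul', mul_comm, mul_nsmul',
        nsmul_smul_eq_zero (diaSL hM hδ.1) hx]
      exact nsmul_zero _
    rw [nsmul_add, nsmul_sub, nsmul_smul_eq_zero σ (nsmul_smul_eq_zero σ hx),
      nsmul_smul_eq_zero σ hTx, h2, sub_zero, add_zero]
  rw [corrY_mk, SemilinearAut.pic0_smul_mk, galoisY_mk σ, galoisY_mk σ, galoisY_mk σ] at htor ⊢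
  set g := arithmeticGalois (FY M) σ with hg
  set φ := EichlerShimura.residueAut A ⟨σ, hσ.mem_decompositionSubgroup⟩ with hφdef
  have hind : EichlerShimura.InducesOn A (IsLocalRing.residue A) σ φ :=
    EichlerShimura.inducesOn_residueAut hσ.mem_decompositionSubgroup
  refine classY_eq_zero_of_red hM hD hE hG hp hpM hA hr hpℓ
    (SemilinearAut.degZeroSMulHom g (SemilinearAut.degZeroSMulHom g D) -
      SemilinearAut.degZeroSMulHom g
        ⟨corrDivY hM hδ (D : Divisor Qbar (FYK M Qbar)), corrDivY_mem_degZero hM hδ D.2⟩ +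
      p • SemilinearAut.degZeroSMulHom (diaSL hM hδ.1) D) htor ?_
  rw [AddSubgroup.coe_add, AddSubgroup.coe_sub, AddSubgroup.coe_nsmul,
    SemilinearAut.coe_degZeroSMulHom, SemilinearAut.coe_degZeroSMulHom,
    SemilinearAut.coe_degZeroSMulHom, SemilinearAut.coe_degZeroSMulHom, Finsupp.mapDomain_add,
    Finsupp.mapDomain_sub,
    mapDomain_galois hM hD hp hpM hA hr hind (SemilinearAut.smul_mem_degZero g D.2),
    mapDomain_galois hM hD hp hpM hA hr hind D.2,
    mapDomain_galois hM hD hp hpM hA hr hind (corrDivY_mem_degZero hM hδ D.2),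
    mapDomain_corr hM hD hp hpM hA hr hδ hC (φ := φ) (EichlerShimura.residueAut_frobenius hσ) D.2,
    show Finsupp.mapDomain r (p • (diaSL hM hδ.1 • (D : Divisor Qbar (FYK M Qbar)))) =
      p • Finsupp.mapDomain r (diaSL hM hδ.1 • (D : Divisor Qbar (FYK M Qbar))) from
      map_nsmul (Finsupp.mapDomain.addMonoidHom r) p _]
  exact smul_relation_eq_zero (X := Divisor _ _) _ p _ _

/-- The torsion of the Jacobian of `GT M`, with Galois and correspondences. -/
theorem torsionInputs_of (hC : FieldC) (hD : FieldDegree) (hMono : MonoInputs) (hG : GenusY) :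
    TorsionInputs := by
  intro M _ ℓ hM hE hℓ
  have : NeZero ℓ := ⟨hℓ.ne_zero⟩
  obtain ⟨Y⟩ := hMono M ℓ hM hℓ
  have htors : ∀ v, ℓ • Y.proj v = 0 := fun v => (Y.range_eq _).mpr ⟨v, rfl⟩
  have := isFunctionField_FYK (K := Qbar) hM hD
  refine ⟨{ proj := Y.proj
            range_eq := Y.range_eq
            ker_eq := Y.ker_eq
            finite_level := Y.finite_level
            unramified := ?_
            hecke := ?_ }⟩
  · intro q hq hqMℓ A hA σ hσ v
    have : NeZero q := ⟨hq.ne_zero⟩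
    have hqM : ¬ q ∣ M := fun h => hqMℓ (h.mul_right ℓ)
    have hqℓ : ¬ q ∣ ℓ := fun h => hqMℓ (h.mul_left M)
    obtain ⟨r, hr⟩ := exists_placeY hM hD hq hqM hA hE hG
    obtain ⟨D, -, hDv⟩ := Y.exists_mono v
    rw [hDv]
    rw [← sub_eq_zero, galoisY_mk]
    refine classY_eq_zero_of_red hM hD hE hG hq hqM hA hr hqℓ
      (SemilinearAut.degZeroSMulHom (arithmeticGalois (FY M) σ) D - D) ?_ ?_
    · show ℓ • (Pic0.mk (SemilinearAut.degZeroSMulHom (arithmeticGalois (FY M) σ) D) -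
          Pic0.mk D) = 0
      rw [← galoisY_mk, ← hDv, nsmul_sub, htors, sub_zero, nsmul_smul_eq_zero σ (htors v)]
    · rw [AddSubgroup.coe_sub, SemilinearAut.coe_degZeroSMulHom, Finsupp.mapDomain_sub,
        mapDomain_galois hM hD hq hqM hA hr (EichlerShimura.inducesOn_refl_of_inertia hσ) D.2,
          coeffSL_refl,
        one_smul, sub_self]
  · intro p hp hpM δ hδ
    have : NeZero p := ⟨hp.ne_zero⟩
    have := isFunctionField_FYP hM hp hpM hδ hC hD
    have hT : ∀ v, Y.proj (heckeT hp hpM hδ v) = corrY hM hδ (Y.proj v) := fun v => by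
      obtain ⟨D, hmono, hDv⟩ := Y.exists_mono v
      rw [hDv, corrY_mk]
      refine Y.proj_eq _ ⟨_, corrDivY_mem_degZero hM hδ D.2⟩
        (isMonoBar_corrDivY hM hp hpM hδ hC (fun γ => ?_) hmono)
      show (((heckeT hp hpM hδ v : Additive (GT M) →+ ℤ) (Additive.ofMul γ) : ℤ) : ZMod ℓ) = _
      rw [heckeT_apply, Int.cast_sum]
      rfl
    have hS : ∀ v, Y.proj (diaS hδ.1 v) = diaSL hM hδ.1 • Y.proj v := fun v => by
      obtain ⟨D, hmono, hDv⟩ := Y.exists_mono v
      rw [hDv, SemilinearAut.pic0_smul_mk]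
      have h1 := isMonoBar_diaSL hM hδ.1 hmono
      rw [← redLat_diaS] at h1
      exact Y.proj_eq (diaS hδ.1 v) (SemilinearAut.degZeroSMulHom (diaSL hM hδ.1) D) h1
    refine ⟨heckeT hp hpM hδ, diaS hδ.1, isHeckeImage_heckeT hp hpM hδ, isDiaImage_diaS hδ.1,
      fun σ v w h => ⟨?_, ?_⟩, fun hpℓ A hA σ hσ v => ?_⟩
    · rw [hT, hT, corrY_galois, h]
    · rw [hS, hS, diaSL_galois, h]
    · obtain ⟨D, -, hDv⟩ := Y.exists_mono v
      rw [hT, hS, hDv]
      exact frobenius_relation hM hC hD hE hG hp hpM hδ hpℓ hA hσ D (hDv ▸ htors v)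

end Fermat.Agent.WeightOneGalois
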