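import Mathlib.GroupTheory.Perm.Cycle.Type
import Fermat.Agent.Hecke.ClHoms
import Fermat.Agent.WeightOneGalois.Period.Level

/-!
# `T_p` and the diamonds on the lattice

The transfer along `T_p` and conjugation by diamonds on `Lat M = Hom_cl(GT M, ℤ)`, satisfying
`IsHeckeImage` and `IsDiaImage`; the lattice side of `TorsionInputs`.
-/

noncomputable section

namespace Fermat.Agent.WeightOneGalois

open CongruenceSubgroup
open scoped MatrixGroups

variable {M p : ℕ} {δ : SL(2, ℤ)}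

theorem heckeRep_cancel (hp : p ≠ 0) {i : Option (Fin p)} {c c' : SL(2, ℤ)}
    (h : (c : Matrix (Fin 2) (Fin 2) ℤ) * heckeRep p δ i =
      (c' : Matrix (Fin 2) (Fin 2) ℤ) * heckeRep p δ i) : c = c' := by
  have hd : (heckeRep p δ i).det ≠ 0 := by
    rcases i with - | b <;> simp [heckeRep, Matrix.det_mul, Matrix.det_fin_two, hp]
  have h' := congrArg (· * (heckeRep p δ i).adjugate) h
  simp only [Matrix.mul_assoc, Matrix.mul_adjugate, Matrix.mul_smul, Matrix.mul_one] at h'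
  exact Subtype.ext (smul_right_injective (Matrix (Fin 2) (Fin 2) ℤ) hd h')

theorem step_unique (hp : p.Prime) {i j j' : Option (Fin p)} {γ c c' : SL(2, ℤ)}
    (h : heckeRep p δ i * (γ : Matrix (Fin 2) (Fin 2) ℤ) =
      (c : Matrix (Fin 2) (Fin 2) ℤ) * heckeRep p δ j)
    (h' : heckeRep p δ i * (γ : Matrix (Fin 2) (Fin 2) ℤ) =
      (c' : Matrix (Fin 2) (Fin 2) ℤ) * heckeRep p δ j') : j = j' ∧ c = c' := by
  have e := h.symm.trans h'
  have hj : j = j' := by
    refine heckeRep_rigid (δ := δ) hp (c⁻¹ * c') ?_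
    rw [Matrix.SpecialLinearGroup.coe_mul, Matrix.mul_assoc, ← e, ← Matrix.mul_assoc,
      ← Matrix.SpecialLinearGroup.coe_mul, inv_mul_cancel, Matrix.SpecialLinearGroup.coe_one,
      Matrix.one_mul]
  subst hj
  exact ⟨rfl, heckeRep_cancel hp.ne_zero e⟩

section Step

variable (hp : p.Prime) (hpM : ¬ p ∣ M) (hδ : IsDiaRep M p δ)
include hp hpM hδ

theorem exists_step_GT (γ : GT M) (i : Option (Fin p)) :
    ∃ (j : Option (Fin p)) (c : GT M),
      heckeRep p δ i * ((γ : SL(2, ℤ)) : Matrix (Fin 2) (Fin 2) ℤ) =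
        ((c : SL(2, ℤ)) : Matrix (Fin 2) (Fin 2) ℤ) * heckeRep p δ j := by
  obtain ⟨j, c, hc, h11, e⟩ := exists_step hp hpM hδ γ.2.1 i
  exact ⟨j, ⟨c, hc, by rw [h11]; exact γ.2.2⟩, e⟩

/-- The index to which `γ` moves `i`. -/
def stepIdx (γ : GT M) (i : Option (Fin p)) : Option (Fin p) :=
  (exists_step_GT hp hpM hδ γ i).choose

/-- The element of `GT M` left over. -/
def stepC (γ : GT M) (i : Option (Fin p)) : GT M :=
  (exists_step_GT hp hpM hδ γ i).choose_spec.choose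

theorem step_spec (γ : GT M) (i : Option (Fin p)) :
    heckeRep p δ i * ((γ : SL(2, ℤ)) : Matrix (Fin 2) (Fin 2) ℤ) =
      ((stepC hp hpM hδ γ i : SL(2, ℤ)) : Matrix (Fin 2) (Fin 2) ℤ) *
        heckeRep p δ (stepIdx hp hpM hδ γ i) :=
  (exists_step_GT hp hpM hδ γ i).choose_spec.choose_spec

theorem step_eq {γ c : GT M} {i j : Option (Fin p)}
    (h : heckeRep p δ i * ((γ : SL(2, ℤ)) : Matrix (Fin 2) (Fin 2) ℤ) =
      ((c : SL(2, ℤ)) : Matrix (Fin 2) (Fin 2) ℤ) * heckeRep p δ j) :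
    stepIdx hp hpM hδ γ i = j ∧ stepC hp hpM hδ γ i = c := by
  obtain ⟨h1, h2⟩ := step_unique hp (step_spec hp hpM hδ γ i) h
  exact ⟨h1, Subtype.ext h2⟩

theorem stepIdx_bijective (γ : GT M) : Function.Bijective (stepIdx hp hpM hδ γ) := by
  obtain ⟨π, c, hπ, h⟩ := exists_steps hp hpM hδ γ.2.1
  convert hπ using 1
  funext i
  exact (step_eq hp hpM hδ (c := ⟨c i, (h i).1, by rw [(h i).2.1]; exact γ.2.2⟩) (h i).2.2).1

theorem step_mul (γ γ' : GT M) (i : Option (Fin p)) :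
    stepIdx hp hpM hδ (γ * γ') i = stepIdx hp hpM hδ γ' (stepIdx hp hpM hδ γ i) ∧
      stepC hp hpM hδ (γ * γ') i =
        stepC hp hpM hδ γ i * stepC hp hpM hδ γ' (stepIdx hp hpM hδ γ i) := by
  refine step_eq hp hpM hδ ?_
  simp only [Subgroup.coe_mul, Matrix.SpecialLinearGroup.coe_mul]
  rw [← Matrix.mul_assoc, step_spec hp hpM hδ γ i, Matrix.mul_assoc,
    step_spec hp hpM hδ γ' _, ← Matrix.mul_assoc]

/-- `T_p` on characters. -/
def heckeChar (v : Additive (GT M) →+ ℤ) : Additive (GT M) →+ ℤ :=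
  AddMonoidHom.mk' (fun g => ∑ i, v (Additive.ofMul (stepC hp hpM hδ (Additive.toMul g) i)))
    fun a b => by
      simp only [toMul_add, (step_mul hp hpM hδ _ _ _).2, ofMul_mul, map_add,
        Finset.sum_add_distrib]
      congr 1
      exact (stepIdx_bijective hp hpM hδ (Additive.toMul a)).sum_comp
        fun i => v (Additive.ofMul (stepC hp hpM hδ (Additive.toMul b) i))

theorem heckeChar_apply (v : Additive (GT M) →+ ℤ) (γ : GT M) :
    heckeChar hp hpM hδ v (Additive.ofMul γ) =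
      ∑ i, v (Additive.ofMul (stepC hp hpM hδ γ i)) := rfl

theorem step_iterate (γ : GT M) (n : ℕ) (i : Option (Fin p)) :
    stepIdx hp hpM hδ (γ ^ n) i = (stepIdx hp hpM hδ γ)^[n] i := by
  induction n generalizing i with
  | zero =>
    rw [pow_zero, Function.iterate_zero_apply]
    exact (step_eq hp hpM hδ (c := 1) (by simp)).1
  | succ n ih =>
    rw [pow_succ', Function.iterate_succ_apply, (step_mul hp hpM hδ _ _ _).1, ih]

theorem tr_stepC_of_fixed (γ : GT M) {i : Option (Fin p)} (h : stepIdx hp hpM hδ γ i = i) :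
    Grp.tr (stepC hp hpM hδ γ i : SL(2, ℤ)) = Grp.tr (γ : SL(2, ℤ)) := by
  have hp0 : (p : ℤ) ≠ 0 := by exact_mod_cast hp.ne_zero
  have e := step_spec hp hpM hδ γ i
  rw [h] at e
  have hd : (heckeRep p δ i).det = p := by
    rcases i with - | b <;> simp [heckeRep, Matrix.det_mul, Matrix.det_fin_two]
  have e' := congrArg (fun A => ((heckeRep p δ i).adjugate * A).trace) e
  simp only [← Matrix.mul_assoc, Matrix.adjugate_mul, Matrix.trace_mul_cycle _ _ (heckeRep p δ i)]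
    at e'
  rw [Matrix.mul_adjugate, hd, Matrix.smul_mul, Matrix.one_mul, Matrix.smul_mul, Matrix.one_mul,
    Matrix.trace_smul, Matrix.trace_smul, smul_eq_mul, smul_eq_mul] at e'
  exact (mul_left_cancel₀ hp0 e').symm

theorem isClHom_heckeChar {v : Additive (GT M) →+ ℤ} (hv : Grp.IsClHom (GT M) v) :
    Grp.IsClHom (GT M) (heckeChar hp hpM hδ v) := by
  intro γ hγ
  set e : Equiv.Perm (Option (Fin p)) := Equiv.ofBijective _ (stepIdx_bijective hp hpM hδ γ)
  have hfix : ∀ i, stepIdx hp hpM hδ (γ ^ orderOf e) i = i := fun i => by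
    rw [step_iterate, show (stepIdx hp hpM hδ γ)^[orderOf e] i = (e ^ orderOf e) i by
      rw [Equiv.Perm.coe_pow]; rfl, pow_orderOf_eq_one]
    rfl
  have h0 : heckeChar hp hpM hδ v (Additive.ofMul (γ ^ orderOf e)) = 0 := by
    rw [heckeChar_apply]
    refine Finset.sum_eq_zero fun i _ => hv _ ?_
    rw [tr_stepC_of_fixed hp hpM hδ _ (hfix i), SubgroupClass.coe_pow]
    exact Hecke.abs_tr_pow_le_two hγ _
  rw [ofMul_pow, map_nsmul, smul_eq_zero] at h0
  exact h0.resolve_left (orderOf_pos e).ne'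

/-- `T_p` on the lattice. -/
def heckeT : Module.End ℤ (Lat M) :=
  (AddMonoidHom.mk' (fun v : Lat M => (⟨heckeChar hp hpM hδ v.1, isClHom_heckeChar hp hpM hδ v.2⟩ :
      Lat M)) fun v w => Subtype.ext (AddMonoidHom.ext fun g => by
        obtain ⟨γ, rfl⟩ : ∃ γ, Additive.ofMul γ = g := ⟨Additive.toMul g, rfl⟩
        simp [heckeChar_apply, Finset.sum_add_distrib])).toIntLinearMap

theorem heckeT_apply (v : Lat M) (γ : GT M) :
    (heckeT hp hpM hδ v : Additive (GT M) →+ ℤ) (Additive.ofMul γ) =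
      ∑ i, (v : Additive (GT M) →+ ℤ) (Additive.ofMul (stepC hp hpM hδ γ i)) := rfl

theorem isHeckeImage_heckeT (v : Lat M) : IsHeckeImage M p δ v (heckeT hp hpM hδ v) := by
  intro γ π c h
  rw [heckeT_apply]
  exact Finset.sum_congr rfl fun i _ => by rw [(step_eq hp hpM hδ (h i)).2]

end Step

/-- Conjugation by an element of `Γ₀(M²)`. -/
def diaConj {σ : SL(2, ℤ)} (hσ : σ ∈ Gamma0 (M ^ 2)) : GT M →* GT M where
  toFun γ := ⟨σ * (γ : SL(2, ℤ)) * σ⁻¹, conj_mem_GT hσ γ.2⟩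
  map_one' := Subtype.ext (by simp)
  map_mul' a b := Subtype.ext (by simp [mul_assoc])

/-- The diamond of `σ` on the lattice. -/
def diaS {σ : SL(2, ℤ)} (hσ : σ ∈ Gamma0 (M ^ 2)) : Module.End ℤ (Lat M) :=
  (AddMonoidHom.mk' (fun v : Lat M => (⟨(v : Additive (GT M) →+ ℤ).comp
        (MonoidHom.toAdditive (diaConj hσ)), fun γ hγ => v.2 (diaConj hσ γ) (by
          show |Grp.tr (σ * (γ : SL(2, ℤ)) * σ⁻¹)| ≤ 2
          rwa [Grp.tr_conj])⟩ : Lat M))
    fun v w => Subtype.ext (AddMonoidHom.ext fun g => rfl)).toIntLinearMap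

theorem diaS_apply {σ : SL(2, ℤ)} (hσ : σ ∈ Gamma0 (M ^ 2)) (v : Lat M) (γ : GT M) :
    (diaS hσ v : Additive (GT M) →+ ℤ) (Additive.ofMul γ) =
      (v : Additive (GT M) →+ ℤ) (Additive.ofMul (diaConj hσ γ)) := rfl

theorem isDiaImage_diaS {σ : SL(2, ℤ)} (hσ : σ ∈ Gamma0 (M ^ 2)) (v : Lat M) :
    IsDiaImage M σ v (diaS hσ v) := by
  intro γ c h
  rw [diaS_apply, show diaConj hσ γ = c from Subtype.ext h]

end Fermat.Agent.WeightOneGalois
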