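import Mathlib.FieldTheory.PrimitiveElement
import Mathlib.LinearAlgebra.Lagrange
import Mathlib.RingTheory.Norm.Transitivity
import Fermat.Prelude.Thm_ModularCurve_coeff_jqModC_neg_one
import Fermat.Agent.EichlerShimura.Congruence
import Fermat.Agent.Hecke.BaseChange
import Fermat.Agent.WeightOneGalois.Hecke.Field

/-!
# The field of level `(M, p)`, its conjugates over level `M`, and the norm

The two degeneracy maps into `FYP M p L` and the `p + 1` conjugates over level `M`, whose product
computes the norm; the algebraic form of the correspondence `T_p`.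
-/

noncomputable section

namespace Fermat.Agent.WeightOneGalois

open CongruenceSubgroup ModularCurve AlgebraicCurve UpperHalfPlane
open Fermat.Agent.MF (IsFormFn lq scale ratioSub)
open scoped MatrixGroups ModularForm

variable {M p : ℕ} [NeZero M] [NeZero p]

section Def

variable (M p) (L : Type*) [Field L]

/-- The field of level `(M, p)`: functions of `q` and `q ^ p` of level `M`. -/
def FYP : IntermediateField L (LaurentSeries L) :=
  IntermediateField.adjoin L (genY M L ∪ qExpand L p '' genY M L)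

theorem qExpand_const (a : L) :
    qExpand L p (algebraMap L (LaurentSeries L) a) = algebraMap L (LaurentSeries L) a := by
  rw [algebraMap_laurentSeries_eq_single, qExpand_single, mul_zero]

variable [Algebra ℚ L] {M p L} (hM : 4 ≤ M)
include hM

theorem FYK_le_FYP : FYK M L ≤ FYP M p L := by
  rw [FYK_eq_adjoin hM]
  exact IntermediateField.adjoin.mono L _ _ Set.subset_union_left

theorem qExpand_mem_FYP (x : FYK M L) : qExpand L p (x : LaurentSeries L) ∈ FYP M p L := by
  refine adjoin_forall_mem (FYK_eq_adjoin hM)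
    ((FYP M p L).toSubfield.comap ((qExpand L p).comp (FYK M L).val.toRingHom)) (fun a => ?_)
    (fun y hy => ?_) x
  · show qExpand L p (algebraMap L (LaurentSeries L) a) ∈ FYP M p L
    rw [qExpand_const]
    exact (FYP M p L).algebraMap_mem a
  · exact IntermediateField.subset_adjoin L _ (Or.inr ⟨_, hy, rfl⟩)

variable (p)

/-- The first degeneracy map. -/
def alphaY : FYK M L →ₐ[L] FYP M p L := IntermediateField.inclusion (FYK_le_FYP hM)

theorem coe_alphaY (x : FYK M L) : (alphaY p hM (L := L) x : LaurentSeries L) = x :=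
  IntermediateField.coe_inclusion (FYK_le_FYP hM) x

variable (f : L →+* ℂ) {δ : SL(2, ℤ)} (hσ : δ ∈ Gamma0 (M ^ 2))

/-- The second degeneracy map, composed with the diamond of `δ`. -/
def betaY : FYK M L →ₐ[L] FYP M p L where
  toRingHom := ((qExpand L p).comp ((FYK M L).val.toRingHom.comp
    (diaHom hM f hσ).toRingHom)).codRestrict (FYP M p L).toSubfield.toSubring
    fun x => qExpand_mem_FYP hM (diaHom hM f hσ x)
  commutes' a := Subtype.ext (by
    show qExpand L p ((diaHom hM f hσ (algebraMap L (FYK M L) a) : FYK M L) : LaurentSeries L) = _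
    rw [AlgHom.commutes]
    exact qExpand_const p L a)

theorem coe_betaY (x : FYK M L) :
    (betaY p hM f hσ x : LaurentSeries L) = qExpand L p (diaHom hM f hσ x : LaurentSeries L) := rfl

end Def

section Emb

variable {L : Type*} [Field L] [Algebra ℚ L] (f : L →+* ℂ)
variable {δ : SL(2, ℤ)} (hM : 4 ≤ M) (hp : p.Prime) (hpM : ¬ p ∣ M) (hδ : IsDiaRep M p δ)
include hM hp hpM hδ

omit hp hpM in
theorem betaY_rep {x : FYK M L} {k : ℤ} {A B : ℍ → ℂ} (hA : IsFormFn (GT M) k A)
    (hB : IsFormFn (GT M) k B) (hB0 : B ≠ 0) (hr : coeffMap f (x : LaurentSeries L) * lq B = lq A) :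
    slR p δ k none B ≠ 0 ∧
      coeffMap f (betaY p hM f hδ.1 x : LaurentSeries L) * lq (slR p δ k none B) =
        lq (slR p δ k none A) := by
  have hAq := (isFormFn_slash_dia hA hδ.1).isQFn (T_mem_GT M)
  have hBq := (isFormFn_slash_dia hB hδ.1).isQFn (T_mem_GT M)
  refine ⟨fun h0 => X0.slash_ne_zero (k := k) hB0 δ ?_, ?_⟩
  · rw [slR_none_eq] at h0
    exact scale_surjective.injective_comp_right
      (show (B ∣[k] δ) ∘ scale p = (0 : ℍ → ℂ) ∘ scale p from h0)
  · rw [coe_betaY, coeffMap_qExpand, coeffMap_diaHom,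
      (diaExp hδ.1).hom_eq (toRatio hM f x) hA hB hB0 hr, slR_none_eq, slR_none_eq,
      MF.lq_comp_scale hAq, MF.lq_comp_scale hBq, ← map_mul]
    show qExpand ℂ p (lq (A ∣[k] δ) / lq (B ∣[k] δ) * lq (B ∣[k] δ)) = _
    have h0 : lq (B ∣[k] δ) ≠ 0 := (diaExp hδ.1).lq_ne_zero hB hB0
    rw [div_mul_cancel₀ _ h0]

omit hp hpM in
theorem gen_qExpand_eq_betaY {y : LaurentSeries L} (hy : y ∈ genY M L) :
    ∃ x : FYK M L, qExpand L p y = (betaY p hM f hδ.1 x : LaurentSeries L) := by
  refine ⟨diaHom hM f (inv_mem hδ.1) ⟨y, genY_subset_FYK hM hy⟩, ?_⟩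
  rw [coe_betaY]
  congr 1
  exact congrArg Subtype.val ((diaEquiv hM f hδ.1).apply_symm_apply ⟨y, genY_subset_FYK hM hy⟩).symm

theorem coeffMap_mem_ratioSubP (w : FYP M p L) :
    coeffMap f (w : LaurentSeries L) ∈ ratioSub (GTp M p) (T_mem_GTp M p) := by
  refine adjoin_forall_mem (F := FYP M p L) rfl
    ((ratioSub (GTp M p) (T_mem_GTp M p)).toSubfield.comap
      ((coeffMap f).comp (FYP M p L).val.toRingHom)) (fun a => ?_) (fun y hy => ?_) w
  · show coeffMap f (algebraMap L (LaurentSeries L) a) ∈ ratioSub (GTp M p) (T_mem_GTp M p)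
    rw [coeffMap_const]
    exact (ratioSub (GTp M p) (T_mem_GTp M p)).algebraMap_mem _
  · show coeffMap f (y : LaurentSeries L) ∈ ratioSub (GTp M p) (T_mem_GTp M p)
    rcases hy with hy | ⟨z, hz, he⟩
    · obtain ⟨k, A, B, hA, hB, hB0, hr⟩ :=
        coeffMap_mem_ratioSub hM f ⟨_, genY_subset_FYK hM hy⟩
      exact ⟨k, A, B, hA.mono (GTp_le M p), hB.mono (GTp_le M p), hB0, hr⟩
    · obtain ⟨x, hx⟩ := gen_qExpand_eq_betaY f hM hδ hz
      obtain ⟨k, A, B, hA, hB, hB0, hr⟩ := coeffMap_mem_ratioSub hM f x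
      obtain ⟨hne, hrep⟩ := betaY_rep f hM hδ hA hB hB0 hr
      rw [← he, hx]
      exact ⟨k, _, _, isFormFn_slR_none hp hpM hδ hA, isFormFn_slR_none hp hpM hδ hB, hne, hrep⟩

/-- The field of level `(M, p)`, read as ratios of forms. -/
def toRatioP : FYP M p L →+* ratioSub (GTp M p) (T_mem_GTp M p) :=
  ((coeffMap f).comp (FYP M p L).val.toRingHom).codRestrict
    (ratioSub (GTp M p) (T_mem_GTp M p)).toSubfield.toSubring
    (coeffMap_mem_ratioSubP f hM hp hpM hδ)

theorem coe_toRatioP (w : FYP M p L) :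
    (toRatioP f hM hp hpM hδ w : LaurentSeries ℂ) = coeffMap f (w : LaurentSeries L) := rfl

/-- The `i`-th conjugate over `ℂ`. -/
def embC (i : Option (Fin p)) : FYP M p L →+* LaurentSeries ℂ :=
  (conjExpansion hp hpM hδ i).hom.comp (toRatioP f hM hp hpM hδ)

theorem embC_alpha (i : Option (Fin p)) (x : FYK M L) :
    embC f hM hp hpM hδ i (alphaY p hM (L := L) x) =
      qExpand ℂ p (coeffMap f (x : LaurentSeries L)) := by
  obtain ⟨k, A, B, hA, hB, hB0, hr⟩ := coeffMap_mem_ratioSub hM f x
  rw [embC, RingHom.comp_apply, (conjExpansion hp hpM hδ i).hom_eq _ (hA.mono (GTp_le M p))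
    (hB.mono (GTp_le M p)) hB0 (by rw [coe_toRatioP, coe_alphaY]; exact hr)]
  show lq ((A ∣[k] gRep hp hpM hδ i) ∘ scale p) / lq ((B ∣[k] gRep hp hpM hδ i) ∘ scale p) = _
  rw [hA.slash_eq _ (gRep_mem hp hpM hδ i), hB.slash_eq _ (gRep_mem hp hpM hδ i),
    MF.lq_comp_scale (hA.isQFn (T_mem_GT M)), MF.lq_comp_scale (hB.isQFn (T_mem_GT M)),
    ← map_div₀, ← hr, mul_div_assoc,
    div_self (fun h0 => hB0 ((MF.lq_eq_zero_iff (hB.isQFn (T_mem_GT M))).mp h0)), mul_one]

theorem embC_beta_none (x : FYK M L) :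
    embC f hM hp hpM hδ none (betaY p hM f hδ.1 x) =
      qExpand ℂ p (qExpand ℂ p (coeffMap f (diaHom hM f hδ.1 x : LaurentSeries L))) := by
  obtain ⟨k, A, B, hA, hB, hB0, hr⟩ := coeffMap_mem_ratioSub hM f x
  obtain ⟨hne, hrep⟩ := betaY_rep f hM hδ hA hB hB0 hr
  have hAq := (isFormFn_slash_dia hA hδ.1).isQFn (T_mem_GT M)
  have hBq := (isFormFn_slash_dia hB hδ.1).isQFn (T_mem_GT M)
  rw [embC, RingHom.comp_apply, (conjExpansion hp hpM hδ none).hom_eq _
    (isFormFn_slR_none hp hpM hδ hA) (isFormFn_slR_none hp hpM hδ hB) hne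
    (by rw [coe_toRatioP]; exact hrep)]
  show lq ((slR p δ k none A ∣[k] gRep hp hpM hδ none) ∘ scale p) /
    lq ((slR p δ k none B ∣[k] gRep hp hpM hδ none) ∘ scale p) = _
  rw [slR_none_slash hp hpM hδ hA, slR_none_slash hp hpM hδ hB, slR_none_eq, slR_none_eq,
    MF.lq_comp_scale (hAq.comp_scale p), MF.lq_comp_scale (hBq.comp_scale p),
    MF.lq_comp_scale hAq, MF.lq_comp_scale hBq, ← map_div₀, ← map_div₀, coeffMap_diaHom,
    (diaExp hδ.1).hom_eq (toRatio hM f x) hA hB hB0 hr]
  rfl

theorem embC_beta_some (b : Fin p) {z : ℂˣ}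
    (hz : (z : ℂ) = Complex.exp (2 * Real.pi * Complex.I * ((b : ℕ) : ℤ) / p)) (x : FYK M L) :
    embC f hM hp hpM hδ (some b) (betaY p hM f hδ.1 x) =
      EichlerShimura.twist z (coeffMap f (x : LaurentSeries L)) := by
  obtain ⟨k, A, B, hA, hB, hB0, hr⟩ := coeffMap_mem_ratioSub hM f x
  obtain ⟨hne, hrep⟩ := betaY_rep f hM hδ hA hB hB0 hr
  have hpk : ((p : ℂ) ^ (-k)) ≠ 0 := zpow_ne_zero _ (by exact_mod_cast NeZero.ne p)
  have hq : ∀ {F : ℍ → ℂ} (hF : IsFormFn (GT M) k F),
      lq ((slR p δ k (some b) F) ∘ scale p) =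
        HahnSeries.C ((p : ℂ) ^ (-k)) * EichlerShimura.twist z (lq F) := by
    intro F hF
    have h1 := isQFn_slash_gRep hp hpM hδ (isFormFn_slR_none hp hpM hδ hF) (some b)
    rw [slR_none_slash hp hpM hδ hF, slR_some_eq] at h1
    have e : (((p : ℂ) ^ (-k)) • (F ∘ MF.affH 1 p ((b : ℕ) : ℤ))) ∘ scale p =
        ((p : ℂ) ^ (-k)) • (F ∘ MF.affH 1 p ((b : ℕ) : ℤ) ∘ scale p) := rfl
    rw [e] at h1
    have h2 : MF.IsQFn (F ∘ MF.affH 1 p ((b : ℕ) : ℤ) ∘ scale p) := by
      have h3 := h1.smul ((p : ℂ) ^ (-k))⁻¹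
      rwa [inv_smul_smul₀ hpk] at h3
    rw [slR_some_eq, e, MF.lq_smul h2, lq_translate (hF.isQFn (T_mem_GT M)) _ hz h2]
  rw [embC, RingHom.comp_apply, (conjExpansion hp hpM hδ (some b)).hom_eq _
    (isFormFn_slR_none hp hpM hδ hA) (isFormFn_slR_none hp hpM hδ hB) hne
    (by rw [coe_toRatioP]; exact hrep)]
  show lq ((slR p δ k none A ∣[k] gRep hp hpM hδ (some b)) ∘ scale p) /
    lq ((slR p δ k none B ∣[k] gRep hp hpM hδ (some b)) ∘ scale p) = _
  rw [slR_none_slash hp hpM hδ hA, slR_none_slash hp hpM hδ hB, hq hA, hq hB,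
    mul_div_mul_left _ _ ((_root_.map_ne_zero HahnSeries.C).mpr hpk), ← map_div₀, ← hr,
        mul_div_assoc,
    div_self (fun h0 => hB0 ((MF.lq_eq_zero_iff (hB.isQFn (T_mem_GT M))).mp h0)), mul_one]

theorem embC_algebraMap (i : Option (Fin p)) (a : L) :
    embC f hM hp hpM hδ i (algebraMap L (FYP M p L) a) = algebraMap ℂ (LaurentSeries ℂ) (f a) := by
  rw [← (alphaY p hM (L := L)).commutes a, embC_alpha f hM hp hpM hδ]
  show qExpand ℂ p (coeffMap f (algebraMap L (LaurentSeries L) a)) = _
  rw [coeffMap_const, qExpand_const]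

variable {z : Lˣ} (hz : f (z : L) = Complex.exp (2 * Real.pi * Complex.I / p))
include hz

omit [NeZero M] [NeZero p] [Algebra ℚ L] hM hp hpM hδ in
theorem map_pow_z (b : Fin p) :
    ((Units.map f.toMonoidHom (z ^ (b : ℕ)) : ℂˣ) : ℂ) =
      Complex.exp (2 * Real.pi * Complex.I * ((b : ℕ) : ℤ) / p) := by
  rw [Units.coe_map, Units.val_pow_eq_pow_val]
  show f ((z : L) ^ (b : ℕ)) = _
  rw [map_pow, hz, ← Complex.exp_nat_mul]
  congr 1
  push_cast
  ring

theorem exists_emb (i : Option (Fin p)) : ∃ φ : FYP M p L →+* LaurentSeries L,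
    ∀ w, coeffMap f (φ w) = embC f hM hp hpM hδ i w := by
  obtain ⟨φ, hφ⟩ := exists_hom_lift (embC f hM hp hpM hδ i) (coeffMap f) fun w => by
    refine adjoin_forall_mem (F := FYP M p L) rfl
      (((coeffMap f).fieldRange).comap (embC f hM hp hpM hδ i)) (fun a => ?_) (fun y hy => ?_) w
    · refine ⟨algebraMap L (LaurentSeries L) a, ?_⟩
      rw [coeffMap_const, embC_algebraMap f hM hp hpM hδ]
    · rcases hy with hy | ⟨u, hu, he⟩
      · refine ⟨qExpand L p (y : LaurentSeries L), ?_⟩
        rw [show y = alphaY p hM (L := L) ⟨_, genY_subset_FYK hM hy⟩ from Subtype.ext rfl,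
          embC_alpha f hM hp hpM hδ, coeffMap_qExpand, coe_alphaY]
      · obtain ⟨x, hx⟩ := gen_qExpand_eq_betaY f hM hδ hu
        have hy' : y = betaY p hM f hδ.1 x := Subtype.ext (he ▸ hx)
        rw [hy']
        rcases i with - | b
        · exact ⟨_, (by rw [coeffMap_qExpand, coeffMap_qExpand] :
            coeffMap f (qExpand L p (qExpand L p (diaHom hM f hδ.1 x : LaurentSeries L))) = _).trans
              (embC_beta_none f hM hp hpM hδ x).symm⟩
        · exact ⟨_, (EichlerShimura.coeffMap_twist f (z ^ (b : ℕ)) (x : LaurentSeries L)).trans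
            (embC_beta_some f hM hp hpM hδ b (map_pow_z f hz b) x).symm⟩
  exact ⟨φ, fun w => RingHom.congr_fun hφ w⟩

/-- The `i`-th conjugate in `L((t))`, with `q = t ^ p`. -/
def embY (i : Option (Fin p)) : FYP M p L →+* LaurentSeries L :=
  (exists_emb f hM hp hpM hδ hz i).choose

theorem coeffMap_embY (i : Option (Fin p)) (w : FYP M p L) :
    coeffMap f (embY f hM hp hpM hδ hz i w) = embC f hM hp hpM hδ i w :=
  (exists_emb f hM hp hpM hδ hz i).choose_spec w

theorem embY_alpha (i : Option (Fin p)) (x : FYK M L) :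
    embY f hM hp hpM hδ hz i (alphaY p hM (L := L) x) = qExpand L p (x : LaurentSeries L) :=
  EichlerShimura.coeffMap_injective f.injective
    (by rw [coeffMap_embY, embC_alpha, coeffMap_qExpand])

theorem embY_beta_none (x : FYK M L) :
    embY f hM hp hpM hδ hz none (betaY p hM f hδ.1 x) =
      qExpand L p (qExpand L p (diaHom hM f hδ.1 x : LaurentSeries L)) :=
  EichlerShimura.coeffMap_injective f.injective
    (by rw [coeffMap_embY, embC_beta_none, coeffMap_qExpand, coeffMap_qExpand])

theorem embY_beta_some (b : Fin p) (x : FYK M L) :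
    embY f hM hp hpM hδ hz (some b) (betaY p hM f hδ.1 x) =
      EichlerShimura.twist (z ^ (b : ℕ)) (x : LaurentSeries L) :=
  EichlerShimura.coeffMap_injective f.injective (by
    rw [coeffMap_embY, EichlerShimura.coeffMap_twist,
      embC_beta_some f hM hp hpM hδ b (map_pow_z f hz b)])

theorem embY_injective :
    Function.Injective fun i => (embY f hM hp hpM hδ hz i : FYP M p L → LaurentSeries L) := by
  let j : FYK M L := ⟨jqModC L, (mem_FYK_iff hM).mpr (jqModC_mem_FYres L)⟩
  have hj : diaHom hM f hδ.1 j = j := diaHom_fix_j hM f hδ.1 j rfl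
  have hc : (jqModC L).coeff (-1) = 1 := coeff_jqModC_neg_one L
  have hsome : ∀ b : Fin p, (embY f hM hp hpM hδ hz (some b) (betaY p hM f hδ.1 j)).coeff (-1) =
      ((z ^ (b : ℕ)) ^ (-1 : ℤ) : Lˣ) := fun b => by
    rw [embY_beta_some f hM hp hpM hδ hz, EichlerShimura.twist_coeff]
    show _ * (jqModC L).coeff (-1) = _
    rw [hc, mul_one]
  have hnone : (embY f hM hp hpM hδ hz none (betaY p hM f hδ.1 j)).coeff (-1) = 0 := by
    rw [embY_beta_none f hM hp hpM hδ hz, qExpand_coeff_of_not_dvd]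
    intro h
    exact hp.one_lt.ne' (by exact_mod_cast Int.eq_one_of_dvd_one (by positivity) (dvd_neg.mp h))
  have hprim : IsPrimitiveRoot z p := by
    refine IsPrimitiveRoot.coe_units_iff.mp
        (IsPrimitiveRoot.of_map_of_injective (f := f) ?_ f.injective)
    rw [hz]
    exact Complex.isPrimitiveRoot_exp p (NeZero.ne p)
  intro i i' h
  have h' := congrArg (fun s : LaurentSeries L => s.coeff (-1)) (congrFun h (betaY p hM f hδ.1 j))
  rcases i with - | b <;> rcases i' with - | b'
  · rfl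
  · simp only [hnone, hsome] at h'
    exact absurd h'.symm (Units.ne_zero _)
  · simp only [hnone, hsome] at h'
    exact absurd h' (Units.ne_zero _)
  · simp only [hsome] at h'
    have h2 := Units.ext h'
    rw [zpow_neg_one, zpow_neg_one, inv_inj] at h2
    exact congrArg some (Fin.ext (hprim.pow_inj b.2 b'.2 h2))

variable (hC : FieldC)
include hC

/-- The product of the conjugates has level `M`. -/
theorem exists_prod_embY (w : FYP M p L) :
    ∃ n : FYK M L, ∏ i, embY f hM hp hpM hδ hz i w = qExpand L p (n : LaurentSeries L) := by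
  obtain ⟨k, F, G, hF, hG, hG0, hr⟩ := coeffMap_mem_ratioSubP f hM hp hpM hδ w
  set K := (Fintype.card (Option (Fin p)) : ℤ) * k
  set P := ∏ i, F ∣[k] gRep hp hpM hδ i
  set Q := ∏ i, G ∣[k] gRep hp hpM hδ i
  have hP : IsFormFn (GT M) K P := isFormFn_prodRep hp hpM hδ hF
  have hQ : IsFormFn (GT M) K Q := isFormFn_prodRep hp hpM hδ hG
  have key : ∀ {U : ℍ → ℂ} (hU : IsFormFn (GTp M p) k U),
      MF.IsQFn (∏ i, U ∣[k] gRep hp hpM hδ i) →
      ∏ i, lq ((U ∣[k] gRep hp hpM hδ i) ∘ scale p) =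
        qExpand ℂ p (lq (∏ i, U ∣[k] gRep hp hpM hδ i)) := fun {U} hU hq => by
    rw [← MF.lq_comp_scale hq, ← MF.lq_prod _ fun i _ => isQFn_slash_gRep hp hpM hδ hU i]
    congr 1
    funext τ
    simp [Finset.prod_apply]
  have hprodC : coeffMap f (∏ i, embY f hM hp hpM hδ hz i w) =
      qExpand ℂ p (lq P) / qExpand ℂ p (lq Q) := by
    rw [map_prod, ← key hF (hP.isQFn (T_mem_GT M)), ← key hG (hQ.isQFn (T_mem_GT M)),
      ← Finset.prod_div_distrib]
    refine Finset.prod_congr rfl fun i _ => ?_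
    rw [coeffMap_embY, embC, RingHom.comp_apply,
      (conjExpansion hp hpM hδ i).hom_eq _ hF hG hG0 (by rw [coe_toRatioP]; exact hr)]
    rfl
  rw [← map_div₀] at hprodC
  have hQ0 : lq Q ≠ 0 := fun h0 => by
    have h1 := key hG (hQ.isQFn (T_mem_GT M))
    rw [h0, map_zero, Finset.prod_eq_zero_iff] at h1
    obtain ⟨i, -, hi⟩ := h1
    exact (conjExpansion hp hpM hδ i).lq_ne_zero hG hG0 hi
  obtain ⟨n, hn, hnY⟩ := EichlerShimura.exists_qExpand_eq f.injective p _ _ hprodC
  refine ⟨⟨n, (mem_FYK_iff hM).mpr (mem_FYres_of_coeffMap_mem (show M ≠ 1 by omega) f ?_)⟩,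
      hnY.symm⟩
  rw [hn, FYres_complex_eq hC hM]
  exact ⟨K, P, Q, hP, hQ, fun h0 => hQ0 (by rw [h0, MF.lq_zero]), div_mul_cancel₀ _ hQ0⟩

/-- The polynomial with the conjugates as roots has coefficients of level `M`. -/
theorem exists_root_embY (w : FYP M p L) :
    ∃ Q : Polynomial (FYK M L), Q.Monic ∧ Q.natDegree = p + 1 ∧
      Q.eval₂ (alphaY p hM (L := L)).toRingHom w = 0 := by
  classical
  let base : FYK M L →+* LaurentSeries L := (qExpand L p).comp (FYK M L).val.toRingHom
  set P := ∏ i, (Polynomial.X - Polynomial.C (embY f hM hp hpM hδ hz i w)) with hPdef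
  have hPm : P.Monic := Polynomial.monic_prod_of_monic _ _ fun i _ => Polynomial.monic_X_sub_C _
  have hPd : P.natDegree = p + 1 := by
    rw [hPdef, Polynomial.natDegree_prod_of_monic _ _ fun i _ => Polynomial.monic_X_sub_C _]
    simp
  set s : Finset ℕ := Finset.range (p + 1 + 1)
  have : CharZero L := charZero_of_injective_algebraMap (algebraMap ℚ L).injective
  have : CharZero (LaurentSeries L) :=
    charZero_of_injective_algebraMap (algebraMap L (LaurentSeries L)).injective
  have : CharZero (FYK M L) := charZero_of_injective_algebraMap (algebraMap L (FYK M L)).injective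
  choose n hn using fun m : ℕ => exists_prod_embY f hM hp hpM hδ hz hC ((m : FYP M p L) - w)
  set Q := Lagrange.interpolate s (fun m : ℕ => (m : FYK M L)) n
  have hinj : Set.InjOn (fun m : ℕ => (m : LaurentSeries L)) s := fun a _ b _ h =>
      Nat.cast_injective h
  have hinj' : Set.InjOn (fun m : ℕ => (m : FYK M L)) s := fun a _ b _ h => Nat.cast_injective h
  have hPQ : Q.map base = P := by
    have h1 : P.degree < s.card := by
      rw [Polynomial.degree_eq_natDegree hPm.ne_zero, hPd, Finset.card_range]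
      exact_mod_cast Nat.lt_succ_self _
    have h2 : (Q.map base).degree < s.card :=
      Polynomial.degree_map_le.trans_lt (Lagrange.degree_interpolate_lt _ hinj')
    refine Polynomial.eq_of_degrees_lt_of_eval_index_eq s hinj h2 h1 fun m hm => ?_
    rw [show (m : LaurentSeries L) = base (m : FYK M L) from (map_natCast _ m).symm,
      Polynomial.eval_map, Polynomial.eval₂_hom, Lagrange.eval_interpolate_at_node _ hinj' hm,
      hPdef, Polynomial.eval_prod]
    simp only [Polynomial.eval_sub, Polynomial.eval_X, Polynomial.eval_C, map_natCast]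
    rw [show base (n m) = qExpand L p (n m : LaurentSeries L) from rfl, ← hn m]
    refine Finset.prod_congr rfl fun i _ => ?_
    rw [map_sub, map_natCast]
  refine ⟨Q, Polynomial.monic_of_injective base.injective (hPQ ▸ hPm),
    by rw [← Polynomial.natDegree_map_eq_of_injective base.injective, hPQ, hPd], ?_⟩
  apply (embY f hM hp hpM hδ hz none).injective
  rw [map_zero, Polynomial.hom_eval₂,
    show (embY f hM hp hpM hδ hz none).comp (alphaY p hM).toRingHom = base from
      RingHom.ext fun x => embY_alpha f hM hp hpM hδ hz none x,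
    ← Polynomial.eval_map, hPQ, Polynomial.eval_prod]
  exact Finset.prod_eq_zero (Finset.mem_univ none) (by simp)

theorem finiteAlong_alphaY : FiniteAlong L (alphaY p hM (L := L)) := by
  let := algebraAlong (alphaY p hM (L := L))
  have := isScalarTower_along (alphaY p hM (L := L))
  have : Algebra.IsIntegral (FYK M L) (FYP M p L) := ⟨fun w => by
    obtain ⟨Q, hm, -, hQ⟩ := exists_root_embY f hM hp hpM hδ hz hC w
    exact ⟨Q, hm, hQ⟩⟩
  have hfin : (genY M L).Finite := by
    refine (Set.Finite.subset ((Nat.divisors (M ^ 2)).finite_toSet.image fun d =>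
      if h : d = 0 then 0 else haveI : NeZero d := ⟨h⟩; qExpand L d (jqModC L)) ?_).union
      (Set.finite_range _)
    rintro _ ⟨d, hd, hdvd, rfl⟩
    exact ⟨d, Nat.mem_divisors.mpr ⟨hdvd, pow_ne_zero 2 (NeZero.ne M)⟩, dif_neg (NeZero.ne d)⟩
  have : Algebra.EssFiniteType L (FYP M p L) :=
    IntermediateField.essFiniteType_iff.mpr (IntermediateField.fg_def.mpr
      ⟨_, hfin.union (hfin.image _), rfl⟩)
  have : Algebra.EssFiniteType (FYK M L) (FYP M p L) := Algebra.EssFiniteType.of_comp L _ _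
  exact Algebra.finite_of_essFiniteType_of_isAlgebraic

theorem finrankAlong_alphaY_le : finrankAlong L (alphaY p hM (L := L)) ≤ p + 1 := by
  let := algebraAlong (alphaY p hM (L := L))
  have : Module.Finite (FYK M L) (FYP M p L) := finiteAlong_alphaY f hM hp hpM hδ hz hC
  have : CharZero L := charZero_of_injective_algebraMap (algebraMap ℚ L).injective
  have : CharZero (FYK M L) := charZero_of_injective_algebraMap (algebraMap L (FYK M L)).injective
  obtain ⟨a, ha⟩ := Field.exists_primitive_element (FYK M L) (FYP M p L)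
  obtain ⟨Q, hm, hd, hQ⟩ := exists_root_embY f hM hp hpM hδ hz hC a
  show Module.finrank (FYK M L) (FYP M p L) ≤ p + 1
  rw [← IntermediateField.finrank_top', ← ha,
    IntermediateField.adjoin.finrank (Algebra.IsIntegral.isIntegral a), ← hd]
  exact Polynomial.natDegree_le_natDegree (minpoly.min _ a hm hQ)

/-- The norm to level `M` is the product of the conjugates. -/
theorem qExpand_normAlong_alphaY (w : FYP M p L) :
    qExpand L p ((Hecke.normAlong (alphaY p hM (L := L)) w : FYK M L) : LaurentSeries L) =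
      ∏ i, embY f hM hp hpM hδ hz i w := by
  let := algebraAlong (alphaY p hM (L := L))
  have : Module.Finite (FYK M L) (FYP M p L) := finiteAlong_alphaY f hM hp hpM hδ hz hC
  have : CharZero L := charZero_of_injective_algebraMap (algebraMap ℚ L).injective
  have : CharZero (FYK M L) := charZero_of_injective_algebraMap (algebraMap L (FYK M L)).injective
  exact EichlerShimura.norm_eq_prod_of_injective ((qExpand L p).comp (FYK M L).val.toRingHom)
    (fun i => embY f hM hp hpM hδ hz i) (fun i x => embY_alpha f hM hp hpM hδ hz i x)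
    (fun i j h => embY_injective f hM hp hpM hδ hz (congrArg DFunLike.coe h))
    (by rw [Fintype.card_option, Fintype.card_fin]
        exact finrankAlong_alphaY_le f hM hp hpM hδ hz hC) w

end Emb

end Fermat.Agent.WeightOneGalois
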