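import Fermat.Agent.WeightOneGalois.Hecke.Inputs
import Fermat.Agent.WeightOneGalois.Hecke.Lattice
import Fermat.Agent.WeightOneGalois.Hecke.Level

/-!
# The monodromy of roots under diamonds and norms

A diamond conjugates the monodromy of a root and the norm from level `(M, p)` transfers it; this
matches `T_p` on divisor classes with `T_p` on the lattice.
-/

noncomputable section

namespace Fermat.Agent.WeightOneGalois

open CongruenceSubgroup ModularCurve AlgebraicCurve UpperHalfPlane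
open Fermat.Agent.MF (IsFormFn lq scale)
open scoped MatrixGroups ModularForm Manifold

theorem pow_slash_SL2 {k : ℤ} (h : ℍ → ℂ) (n : ℕ) (γ : SL(2, ℤ)) :
    (h ^ n) ∣[(n : ℤ) * k] γ = (h ∣[k] γ) ^ n := by
  have := MF.prod_slash_SL2_const (Finset.range n) k (fun _ => h) γ
  simpa using this

theorem addChar_sum {ι A R : Type*} [AddCommMonoid A] [CommMonoid R] (ψ : AddChar A R)
    (s : Finset ι)
    (g : ι → A) : ψ (∑ i ∈ s, g i) = ∏ i ∈ s, ψ (g i) := by
  classical
  induction s using Finset.induction_on with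
  | empty => simp
  | insert a s ha ih =>
    rw [Finset.sum_insert ha, Finset.prod_insert ha, AddChar.map_add_eq_mul, ih]

theorem mul_pow_slash_SL2 {k : ℤ} (A B : ℍ → ℂ) (m : ℕ) [NeZero m] (γ : SL(2, ℤ)) :
    (A * B ^ (m - 1)) ∣[(m : ℤ) * k] γ = (A ∣[k] γ) * (B ∣[k] γ) ^ (m - 1) := by
  have hm : 1 ≤ m := Nat.one_le_iff_ne_zero.mpr (NeZero.ne m)
  rw [show (m : ℤ) * k = k + ((m - 1 : ℕ) : ℤ) * k by push_cast [hm]; ring,
    ModularForm.mul_slash_SL2, pow_slash_SL2]

variable {M p : ℕ} [NeZero M] [NeZero p]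

section Dia

variable {L : Type*} [Field L] [Algebra ℚ L] (f : L →+* ℂ) (hM : 4 ≤ M) {σ : SL(2, ℤ)}
  (hσ : σ ∈ Gamma0 (M ^ 2))

/-- A diamond conjugates the monodromy. -/
theorem hasRootMono_diaHom {m : ℕ} [NeZero m] {x : FYK M L} {φ : Additive (GT M) →+ ZMod m}
    (hx : HasRootMono M m (coeffMap f (x : LaurentSeries L)) φ) :
    HasRootMono M m (coeffMap f (diaHom hM f hσ x : LaurentSeries L))
      (φ.comp (MonoidHom.toAdditive (diaConj hσ))) := by
  obtain ⟨k, A, B, h, hA, hB, hB0, hr, hh, hpow, hmon⟩ := hx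
  refine ⟨k, A ∣[k] σ, B ∣[k] σ, h ∣[k] σ, isFormFn_slash_dia hA hσ, isFormFn_slash_dia hB hσ,
    X0.slash_ne_zero hB0 σ, ?_, hh.slash k _, ?_, fun γ => ?_⟩
  · rw [coeffMap_diaHom, (diaExp hσ).hom_eq (toRatio hM f x) hA hB hB0 hr]
    have h0 : lq (B ∣[k] σ) ≠ 0 := (diaExp hσ).lq_ne_zero hB hB0
    exact div_mul_cancel₀ _ h0
  · rw [← pow_slash_SL2 (k := k), hpow, mul_pow_slash_SL2]
  · rw [← SlashAction.slash_mul, show σ * (γ : SL(2, ℤ)) = (diaConj hσ γ : SL(2, ℤ)) * σ by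
        show σ * (γ : SL(2, ℤ)) = σ * (γ : SL(2, ℤ)) * σ⁻¹ * σ
        rw [inv_mul_cancel_right],
      SlashAction.slash_mul, hmon, ModularForm.SL_smul_slash]
    rfl

end Dia

section Norm

variable {L : Type*} [Field L] [Algebra ℚ L] (f : L →+* ℂ) (hC : FieldC) (hM : 4 ≤ M)
  {δ : SL(2, ℤ)} (hp : p.Prime) (hpM : ¬ p ∣ M) (hδ : IsDiaRep M p δ)
  {z : Lˣ} (hz : f (z : L) = Complex.exp (2 * Real.pi * Complex.I / p))
include hC hp hpM hδ hz

/-- The correspondence sums the monodromy over the representatives. -/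
theorem hasRootMono_norm {m : ℕ} [NeZero m] {x : FYK M L} {φ ψ : Additive (GT M) →+ ZMod m}
    (hψ : ∀ γ : GT M, ψ (Additive.ofMul γ) =
      ∑ i, φ (Additive.ofMul (stepC hp hpM hδ γ i)))
    (hx : HasRootMono M m (coeffMap f (x : LaurentSeries L)) φ) :
    HasRootMono M m (coeffMap f ((Hecke.normAlong (alphaY p hM (L := L))
      (betaY p hM f hδ.1 x) : FYK M L) : LaurentSeries L)) ψ := by
  obtain ⟨k, A, B, h, hA, hB, hB0, hr, hh, hpow, hmon⟩ := hx
  obtain ⟨hne, hrep⟩ := betaY_rep f hM hδ hA hB hB0 hr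
  have hA' := isFormFn_slR_none hp hpM hδ hA
  have hB' := isFormFn_slR_none hp hpM hδ hB
  have hprod : ∀ {F : ℍ → ℂ}, IsFormFn (GT M) k F →
      ∏ i, slR p δ k none F ∣[k] gRep hp hpM hδ i = ∏ i, slR p δ k i F := fun {F} hF =>
    Finset.prod_congr rfl fun i _ => slR_none_slash hp hpM hδ hF i
  have hPA : IsFormFn (GT M) ((Fintype.card (Option (Fin p)) : ℤ) * k) (∏ i, slR p δ k i A) :=
    hprod hA ▸ isFormFn_prodRep hp hpM hδ hA'
  have hPB : IsFormFn (GT M) ((Fintype.card (Option (Fin p)) : ℤ) * k) (∏ i, slR p δ k i B) :=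
    hprod hB ▸ isFormFn_prodRep hp hpM hδ hB'
  have key : ∀ {F : ℍ → ℂ}, IsFormFn (GT M) k F →
      IsFormFn (GT M) ((Fintype.card (Option (Fin p)) : ℤ) * k) (∏ i, slR p δ k i F) →
      ∏ i, lq ((slR p δ k none F ∣[k] gRep hp hpM hδ i) ∘ scale p) =
        qExpand ℂ p (lq (∏ i, slR p δ k i F)) := fun {F} hF hq => by
    rw [← MF.lq_comp_scale (hq.isQFn (T_mem_GT M)), ← MF.lq_prod _ fun i _ =>
      isQFn_slash_gRep hp hpM hδ (isFormFn_slR_none hp hpM hδ hF) i, ← hprod hF]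
    congr 1
    funext τ
    simp [Finset.prod_apply]
  have hPB0 : lq (∏ i, slR p δ k i B) ≠ 0 := fun h0 => by
    have h1 := key hB hPB
    rw [h0, map_zero, Finset.prod_eq_zero_iff] at h1
    obtain ⟨i, -, hi⟩ := h1
    exact (conjExpansion hp hpM hδ i).lq_ne_zero hB' hne hi
  refine ⟨_, ∏ i, slR p δ k i A, ∏ i, slR p δ k i B, ∏ i, slR p δ k i h, hPA, hPB,
    fun h0 => hPB0 (by rw [h0, MF.lq_zero]), ?_, ?_, ?_, fun γ => ?_⟩
  · refine qExpand_injective p ?_
    rw [map_mul, ← coeffMap_qExpand, qExpand_normAlong_alphaY f hM hp hpM hδ hz hC, map_prod,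
      ← key hA hPA, ← key hB hPB, ← Finset.prod_mul_distrib]
    refine Finset.prod_congr rfl fun i _ => ?_
    rw [coeffMap_embY, embC, RingHom.comp_apply,
      (conjExpansion hp hpM hδ i).hom_eq _ hA' hB' hne (by rw [coe_toRatioP]; exact hrep)]
    exact div_mul_cancel₀ _ ((conjExpansion hp hpM hδ i).lq_ne_zero hB' hne)
  · exact MDifferentiable.prod fun i _ => (hh.slash k _).const_smul _
  · have hm : 1 ≤ m := Nat.one_le_iff_ne_zero.mpr (NeZero.ne m)
    rw [← Finset.prod_pow, ← Finset.prod_pow, ← Finset.prod_mul_distrib]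
    refine Finset.prod_congr rfl fun i _ => ?_
    rw [← slR_pow, hpow, show (m : ℤ) * k = k + ((m - 1 : ℕ) : ℤ) * k by push_cast [hm]; ring,
      slR_mul, slR_pow]
  · rw [← Finset.card_univ, MF.prod_slash_SL2_const, hψ, addChar_sum]
    have hstep : ∀ i, slR p δ k i h ∣[k] (γ : SL(2, ℤ)) =
        ZMod.stdAddChar (φ (Additive.ofMul (stepC hp hpM hδ γ i))) •
          slR p δ k (stepIdx hp hpM hδ γ i) h := fun i => by
      rw [slR_slash k h (step_spec hp hpM hδ γ i), hmon, slR_smul]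
    rw [Finset.prod_congr rfl fun i _ => hstep i, Finset.prod_smul]
    congr 1
    exact (stepIdx_bijective hp hpM hδ γ).prod_comp fun i => slR p δ k i h

end Norm

end Fermat.Agent.WeightOneGalois
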