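import Fermat.Agent.EichlerShimura.Galois
import Fermat.Agent.Hecke.Along
import Fermat.Agent.Hecke.Curves
import Fermat.Agent.WeightOneGalois.Hecke.Gauss
import Fermat.Agent.WeightOneGalois.Hecke.Mono

/-!
# The correspondence `T_p` and the diamonds on divisor classes

Defines `corrY` and `diaSL` on the Jacobian of `GT M` over `ℚ̄`, shows that they commute with
Galois, and computes their effect on monodromy; these are the operators of `TorsionInputs`.
-/

noncomputable section

namespace Fermat.Agent.WeightOneGalois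

open CongruenceSubgroup ModularCurve AlgebraicCurve
open scoped MatrixGroups

local notation "Γℚ" => (AlgebraicClosure ℚ ≃ₐ[ℚ] AlgebraicClosure ℚ)
local notation "Qbar" => AlgebraicClosure ℚ
local notation "fQ" => (complexEmbedding : AlgebraicClosure ℚ →+* ℂ)

/-! ### Automorphisms of the constants acting on coefficients -/

section Coeff

variable {K : Type*} [Field K]

theorem coeffMap_mem_adjoin_of_gens (φ : K →+* K) {G : Set (LaurentSeries K)}
    (hG : ∀ y ∈ G, coeffMap φ y ∈ IntermediateField.adjoin K G) {x : LaurentSeries K}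
    (hx : x ∈ IntermediateField.adjoin K G) : coeffMap φ x ∈ IntermediateField.adjoin K G := by
  induction hx using IntermediateField.adjoin_induction with
  | mem y hy => exact hG y hy
  | algebraMap c => rw [coeffMap_algebraMap]; exact IntermediateField.algebraMap_mem _ _
  | add y z _ _ hy hz => rw [map_add]; exact add_mem hy hz
  | inv y _ hy => rw [map_inv₀]; exact inv_mem hy
  | mul y z _ _ hy hz => rw [map_mul]; exact mul_mem hy hz

/-- A field of series stable under the automorphisms of the constants. -/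
def CoeffStable (F : IntermediateField K (LaurentSeries K)) : Prop :=
  ∀ φ : K →+* K, ∀ x ∈ F, coeffMap φ x ∈ F

variable {F : IntermediateField K (LaurentSeries K)} (hF : CoeffStable F)

/-- The automorphism induced by an automorphism of the constants. -/
def coeffAut (φ : K ≃+* K) : F ≃+* F where
  toFun x := ⟨coeffMap (φ : K →+* K) (x : LaurentSeries K), hF _ _ x.2⟩
  invFun x := ⟨coeffMap (φ.symm : K →+* K) (x : LaurentSeries K), hF _ _ x.2⟩
  left_inv x := Subtype.ext (by ext n; simp)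
  right_inv x := Subtype.ext (by ext n; simp)
  map_mul' x y := Subtype.ext (map_mul (coeffMap (φ : K →+* K)) _ _)
  map_add' x y := Subtype.ext (map_add (coeffMap (φ : K →+* K)) _ _)

/-- The semilinear automorphism given by acting on coefficients. -/
def coeffSL (φ : K ≃+* K) : SemilinearAut K F :=
  ⟨(coeffAut hF φ, φ), fun a => Subtype.ext (coeffMap_algebraMap (φ : K →+* K) a)⟩

theorem coe_coeffSL_smul (φ : K ≃+* K) (x : F) :
    ((coeffSL hF φ • x : F) : LaurentSeries K) = coeffMap (φ : K →+* K) (x : LaurentSeries K) :=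
  rfl

theorem coe_coeffSL_inv_smul (φ : K ≃+* K) (x : F) :
    (((coeffSL hF φ)⁻¹ • x : F) : LaurentSeries K) =
      coeffMap (φ.symm : K →+* K) (x : LaurentSeries K) :=
  rfl

theorem coeffSL_refl : coeffSL hF (RingEquiv.refl K) = 1 := by
  refine Subtype.ext (Prod.ext (RingEquiv.ext fun x => Subtype.ext ?_) rfl)
  show coeffMap ((RingEquiv.refl K : K ≃+* K) : K →+* K) (x : LaurentSeries K) = x
  ext n; simp

end Coeff

variable {M p : ℕ} [NeZero M] [NeZero p]

theorem coeffStable_FYres (hM : M ≠ 1) (K : Type*) [Field K] : CoeffStable (FYres M K) :=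
  fun φ _ hx => coeffMap_mem_FYres hM φ hx

theorem coeffStable_FYP (hM : M ≠ 1) (K : Type*) [Field K] : CoeffStable (FYP M p K) := by
  intro φ x hx
  refine coeffMap_mem_adjoin_of_gens φ (fun y hy => IntermediateField.subset_adjoin K _ ?_) hx
  rcases hy with hy | ⟨z, hz, rfl⟩
  · exact Or.inl (by rw [← coeffMap_image_genY hM φ]; exact ⟨y, hy, rfl⟩)
  · exact Or.inr ⟨coeffMap φ z, by rw [← coeffMap_image_genY hM φ]; exact ⟨z, hz, rfl⟩,
      (coeffMap_qExpand φ p z).symm⟩

/-- A `p`-th root of unity in `A` going to `e^(2πi/p)`. -/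
theorem exists_rootUnit (hp : p.Prime) (A : ValuationSubring Qbar) :
    ∃ ζ : Aˣ, ζ ^ p = 1 ∧
      fQ ((Units.map A.subtype.toMonoidHom ζ : Qbarˣ) : Qbar) =
        Complex.exp (2 * Real.pi * Complex.I / p) := by
  obtain ⟨u, hu, hprim⟩ := EichlerShimura.exists_primitiveRoot_unit (A := A) hp
  have hC : IsPrimitiveRoot (fQ ((Units.map A.subtype.toMonoidHom u : Qbarˣ) : Qbar)) p :=
    (IsPrimitiveRoot.coe_units_iff.mpr hprim).map_of_injective (RingHom.injective _)
  obtain ⟨i, -, hi⟩ :=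
    hC.eq_pow_of_pow_eq_one (Complex.isPrimitiveRoot_exp p hp.ne_zero).pow_eq_one
  refine ⟨u ^ i, by rw [← pow_mul, mul_comm, pow_mul, hu, one_pow], ?_⟩
  rw [map_pow, Units.val_pow_eq_pow_val, map_pow, hi]

variable {δ : SL(2, ℤ)} (hM : 4 ≤ M) (hp : p.Prime) (hpM : ¬ p ∣ M) (hδ : IsDiaRep M p δ)

include hM hp hpM hδ in
/-- The field of level `(M, p)` is a function field. -/
theorem isFunctionField_FYP (hC : FieldC) (hD : FieldDegree) :
    FF.IsFunctionField Qbar (FYP M p Qbar) := by
  obtain ⟨ζ, -, hz⟩ := exists_rootUnit hp (⊤ : ValuationSubring Qbar)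
  have := isFunctionField_FYK (K := Qbar) hM hD
  let := algebraAlong (alphaY p hM (L := Qbar))
  have := isScalarTower_along (alphaY p hM (L := Qbar))
  have : Module.Finite (FYK M Qbar) (FYP M p Qbar) :=
    finiteAlong_alphaY fQ hM hp hpM hδ hz hC
  exact FF.isFunctionField_of_finite_extension (FYK M Qbar) (FYP M p Qbar)

/-- The diamond acting on functions, as a semilinear automorphism. -/
def diaSL {σ : SL(2, ℤ)} (hσ : σ ∈ Gamma0 (M ^ 2)) : SemilinearAut Qbar (FYK M Qbar) :=
  SemilinearAut.ofAlgAut (diaEquiv hM fQ hσ)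

/-- The diamond commutes with Galois on classes. -/
theorem diaSL_galois {σ : SL(2, ℤ)} (hσ : σ ∈ Gamma0 (M ^ 2)) (g : Γℚ) (x : JY M) :
    g • (diaSL hM hσ • x) = diaSL hM hσ • (g • x) := by
  rw [galois_smul_pic0_def, galois_smul_pic0_def, ← mul_smul, ← mul_smul]
  congr 1
  refine Subtype.ext (Prod.ext (RingEquiv.ext fun y => ?_) ?_)
  · exact (diaEquiv_galois hM fQ hσ g y).symm
  · show g.toRingEquiv * 1 = 1 * g.toRingEquiv
    rw [one_mul, mul_one]

theorem isMonoBar_diaSL {σ : SL(2, ℤ)} (hσ : σ ∈ Gamma0 (M ^ 2)) {m : ℕ} [NeZero m]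
    {D : Divisor Qbar (FYK M Qbar)} {φ : Additive (GT M) →+ ZMod m} (h : IsMonoBar M m D φ) :
    IsMonoBar M m (diaSL hM hσ • D) (φ.comp (MonoidHom.toAdditive (diaConj hσ))) := by
  obtain ⟨x, hx0, hx, hr⟩ := h
  refine ⟨diaSL hM hσ • x, fun h0 => hx0 (by simpa using congrArg ((diaSL hM hσ)⁻¹ • ·) h0),
    fun v => ?_, hasRootMono_diaHom fQ hM hσ hr⟩
  rw [SemilinearAut.divisor_smul_apply, hx]
  have := SemilinearAut.ord_smul (diaSL hM hσ) ((diaSL hM hσ)⁻¹ • v) x
  rw [smul_inv_smul] at this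
  exact this.symm

section Corr

variable [FF.IsFunctionField Qbar (FYK M Qbar)] [FF.IsFunctionField Qbar (FYP M p Qbar)]

/-- The correspondence on divisors. -/
def corrDivY : Divisor Qbar (FYK M Qbar) →+ Divisor Qbar (FYK M Qbar) :=
  Divisor.correspondence (betaY p hM fQ hδ.1) (alphaY p hM)
    (Hecke.isIntegralAlong _) (Hecke.isIntegralAlong _)

/-- The correspondence on classes. -/
def corrY : JY M →+ JY M :=
  Pic0.correspondence (betaY p hM fQ hδ.1) (alphaY p hM)
    (Hecke.isIntegralAlong _) (Hecke.isIntegralAlong _) (Hecke.fundamentalIdentityAlong _ _)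
    (Hecke.finiteAlong _) (Hecke.normFormulaAlong _ _)

theorem corrDivY_mem_degZero {D : Divisor Qbar (FYK M Qbar)}
    (hD : D ∈ Divisor.degZero (K := Qbar) (F := FYK M Qbar)) :
    corrDivY hM hδ D ∈ Divisor.degZero (K := Qbar) (F := FYK M Qbar) :=
  Divisor.correspondence_mem_degZero (betaY p hM fQ hδ.1) (alphaY p hM) _ _
    (Hecke.fundamentalIdentityAlong _ _) hD

theorem corrY_mk (D : Divisor.degZero (K := Qbar) (F := FYK M Qbar)) :
    corrY hM hδ (Pic0.mk D) =
      Pic0.mk ⟨corrDivY hM hδ (D : Divisor Qbar (FYK M Qbar)), corrDivY_mem_degZero hM hδ D.2⟩ :=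
  rfl

theorem corrY_galois (g : Γℚ) (x : JY M) : g • corrY hM hδ x = corrY hM hδ (g • x) := by
  rw [galois_smul_pic0_def, galois_smul_pic0_def]
  refine (Hecke.pic0_correspondence_smul (betaY p hM fQ hδ.1) _ (alphaY p hM) _
    (fun _ => FF.place_deg_eq_one _) _ _ _ (g' := coeffSL (coeffStable_FYP (M := M) (p := p)
      (show M ≠ 1 by omega) Qbar) g.toRingEquiv) ?_ ?_ x).symm
  · intro y
    refine Subtype.ext ?_
    show coeffMap _ (qExpand Qbar p (diaHom hM fQ hδ.1 y : LaurentSeries Qbar)) =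
      qExpand Qbar p (diaHom hM fQ hδ.1 (arithmeticGalois (FY M) g • y) : LaurentSeries Qbar)
    rw [show diaHom hM fQ hδ.1 (arithmeticGalois (FY M) g • y) =
      arithmeticGalois (FY M) g • diaHom hM fQ hδ.1 y from diaEquiv_galois hM fQ hδ.1 g y,
      coe_arithmeticGalois_smul, coeffMap_qExpand]
    rfl
  · intro y
    refine Subtype.ext ?_
    show coeffMap _ (alphaY p hM y : LaurentSeries Qbar) =
      (alphaY p hM (arithmeticGalois (FY M) g • y) : LaurentSeries Qbar)
    rw [coe_alphaY, coe_alphaY, coe_arithmeticGalois_smul]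
    rfl

theorem corrDivY_div {x : FYK M Qbar} (hx : x ≠ 0) {D : Divisor Qbar (FYK M Qbar)}
    (hD : ∀ v, D v = v.ord x) (v : Place Qbar (FYK M Qbar)) :
    corrDivY hM hδ D v = v.ord (Hecke.normAlong (alphaY p hM) (betaY p hM fQ hδ.1 x)) := by
  rw [corrDivY, Divisor.correspondence_apply]
  exact Hecke.pushforwardAlong_eq_ord_normAlong _ _ (Hecke.finiteAlong _)
    (Hecke.normFormulaAlong _ _) ((_root_.map_ne_zero _).mpr hx)
    (fun w => Hecke.pullbackAlong_apply_eq_ord _ _ hD w) v

include hp hpM in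
theorem isMonoBar_corrDivY (hC : FieldC) {m : ℕ} [NeZero m] {D : Divisor Qbar (FYK M Qbar)}
    {φ ψ : Additive (GT M) →+ ZMod m}
    (hψ : ∀ γ : GT M, ψ (Additive.ofMul γ) =
      ∑ i, φ (Additive.ofMul (stepC hp hpM hδ γ i)))
    (h : IsMonoBar M m D φ) : IsMonoBar M m (corrDivY hM hδ D) ψ := by
  obtain ⟨x, hx0, hx, hr⟩ := h
  obtain ⟨ζ, -, hz⟩ := exists_rootUnit hp (⊤ : ValuationSubring Qbar)
  refine ⟨Hecke.normAlong (alphaY p hM) (betaY p hM fQ hδ.1 x), ?_, fun v => ?_,
    hasRootMono_norm fQ hC hM hp hpM hδ hz hψ hr⟩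
  · intro h0
    let := algebraAlong (alphaY p hM (L := Qbar))
    have : Module.Finite (FYK M Qbar) (FYP M p Qbar) := Hecke.finiteAlong _
    exact hx0 ((_root_.map_eq_zero (betaY p hM fQ hδ.1)).mp (Algebra.norm_eq_zero_iff.mp h0))
  · rw [← corrDivY_div hM hδ hx0 (D := (m : ℤ) • D)
      (fun w => by rw [Finsupp.smul_apply, smul_eq_mul, hx]) v, map_zsmul, Finsupp.smul_apply,
      smul_eq_mul]

end Corr

end Fermat.Agent.WeightOneGalois
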