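import Fermat.Agent.EichlerShimura.HeckeRelation
import Fermat.Agent.WeightOneGalois.Hecke.Corr

/-!
# Reduction of divisors, Frobenius and the congruence relation

Modulo `p` the correspondence `T_p` becomes `Frob + p ⟨p⟩ Frob⁻¹` on the reductions of divisors of
degree zero; this gives the Frobenius relation in `TorsionInputs`.
-/

noncomputable section

namespace Fermat.Agent.WeightOneGalois

open CongruenceSubgroup ModularCurve AlgebraicCurve
open Fermat.Agent.Red (intFns intRed coe_intRed)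
open scoped MatrixGroups

local notation "Γℚ" => (AlgebraicClosure ℚ ≃ₐ[ℚ] AlgebraicClosure ℚ)
local notation "Qbar" => AlgebraicClosure ℚ
local notation "fQ" => (complexEmbedding : AlgebraicClosure ℚ →+* ℂ)

/-- The series of a norm divided by a constant, and its reduction. -/
theorem exists_norm_series {L : Type*} [Field L] {A : ValuationSubring L} {k : Type*} [Field k]
    (π : A →+* k) {p : ℕ} [NeZero p] [Fact p.Prime] [CharP k p] {φ : k ≃+* k}
    (hφ : ∀ x, φ x = x ^ p) (ζ : Aˣ) (hζ : ζ ^ p = 1) {za zb ys : LaurentSeries A}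
    {θ N y : LaurentSeries L} {c : L} (hc : c ≠ 0) (hy : coeffMap A.subtype ys = y)
    (hθ : θ * coeffMap A.subtype zb = algebraMap L (LaurentSeries L) c * coeffMap A.subtype za)
    (hN : qExpand L p N = qExpand L p (qExpand L p θ) *
      ∏ i : Fin p, EichlerShimura.twist (Units.map A.subtype.toMonoidHom ζ ^ (i : ℕ)) y) :
    ∃ W : LaurentSeries A,
      coeffMap A.subtype W =
        algebraMap L (LaurentSeries L) c⁻¹ * N * qExpand L p (coeffMap A.subtype zb) ∧
      coeffMap π W = qExpand k p (coeffMap π za) * coeffMap (φ : k →+* k) (coeffMap π ys) := by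
  set Y : LaurentSeries A :=
    qExpand A p (qExpand A p za) * ∏ i : Fin p, EichlerShimura.twist (ζ ^ (i : ℕ)) ys with hYdef
  have hY : coeffMap A.subtype Y =
      qExpand L p (algebraMap L (LaurentSeries L) c⁻¹ * N *
        qExpand L p (coeffMap A.subtype zb)) := by
    rw [map_mul (qExpand L p), map_mul (qExpand L p), qExpand_const, hN]
    have h2 : qExpand L p (qExpand L p θ) * qExpand L p (qExpand L p (coeffMap A.subtype zb)) =
        algebraMap L (LaurentSeries L) c * qExpand L p (qExpand L p (coeffMap A.subtype za)) := by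
      rw [← map_mul, ← map_mul, hθ, map_mul, map_mul, qExpand_const, qExpand_const]
    have hcc : algebraMap L (LaurentSeries L) c⁻¹ * algebraMap L (LaurentSeries L) c = 1 := by
      rw [← map_mul, inv_mul_cancel₀ hc, map_one]
    simp only [hYdef, map_mul, map_prod, coeffMap_qExpand, EichlerShimura.coeffMap_twist,
      map_pow, hy]
    linear_combination (-(algebraMap L (LaurentSeries L) c⁻¹ *
        ∏ i : Fin p, EichlerShimura.twist (Units.map A.subtype.toMonoidHom ζ ^ (i : ℕ)) y)) * h2 -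
      (qExpand L p (qExpand L p (coeffMap A.subtype za)) *
        ∏ i : Fin p, EichlerShimura.twist (Units.map A.subtype.toMonoidHom ζ ^ (i : ℕ)) y) * hcc
  obtain ⟨W, hW, hWY⟩ := EichlerShimura.exists_qExpand_eq (f := A.subtype) A.subtype_injective
    p Y _ hY
  refine ⟨W, hW, qExpand_injective p ?_⟩
  have hπζ : Units.map (π : A →* k) ζ = 1 := Units.ext <| by
    refine frobenius_inj k p ?_
    rw [Units.val_one, frobenius_def, frobenius_def, one_pow, Units.coe_map, ← map_pow,
      ← Units.val_pow_eq_pow_val, hζ, Units.val_one, map_one]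
  have hfr : frobenius k p = (φ : k →+* k) := RingHom.ext fun x => (hφ x).symm
  rw [← coeffMap_qExpand, hWY, hYdef]
  simp only [map_mul, map_prod, coeffMap_qExpand, EichlerShimura.coeffMap_twist, map_pow,
    RingHom.toMonoidHom_eq_coe, hπζ, one_pow, EichlerShimura.twist_one, Finset.prod_const,
      Finset.card_univ,
    Fintype.card_fin]
  rw [EichlerShimura.pow_char_eq_qExpand p (coeffMap π ys), hfr]

section Reduction

variable {M p : ℕ} [NeZero M] [NeZero p] {A : ValuationSubring (AlgebraicClosure ℚ)}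

local notation "𝕜" => IsLocalRing.ResidueField A
local notation "π" => IsLocalRing.residue A

theorem ord_smul_at {K F : Type*} [Field K] [Field F] [Algebra K F] (g : SemilinearAut K F)
    (w : Place K F) (f : F) : (g⁻¹ • w).ord f = w.ord (g • f) := by
  have h := SemilinearAut.ord_smul g (g⁻¹ • w) f
  rw [smul_inv_smul] at h
  exact h.symm

/-- The divisor form of an equation `n (g⁻¹ b) ^ p = (g⁻¹ a) ^ p (g y)`. -/
theorem eq_smul_add_of_mul_pow {K F : Type*} [Field K] [Field F] [Algebra K F]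
    (g : SemilinearAut K F) (p : ℕ) {n a b y : F} (hn0 : n ≠ 0) (ha : a ≠ 0) (hb : b ≠ 0)
    (hy : y ≠ 0) (heq : n * (g⁻¹ • b) ^ p = (g⁻¹ • a) ^ p * (g • y)) {D E T : Divisor K F}
    (hD : ∀ Q, D Q = Q.ord n) (hE : ∀ Q, E Q = Q.ord y)
    (hT : ∀ Q, T Q = Q.ord a - Q.ord b) : D = g • E + p • (g⁻¹ • T) := by
  refine Finsupp.ext fun Q => ?_
  have hne : ∀ {x : F} {h : SemilinearAut K F}, x ≠ 0 → h • x ≠ 0 :=
    fun {x h} hx h0 => hx (by simpa using congrArg (h⁻¹ • ·) h0)
  have hordeq := congrArg Q.ord heq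
  rw [Place.ord_mul _ hn0 (pow_ne_zero p (hne hb)),
    Place.ord_mul _ (pow_ne_zero p (hne ha)) (hne hy), ← zpow_natCast (g⁻¹ • b) p,
    ← zpow_natCast (g⁻¹ • a) p, Place.ord_zpow, Place.ord_zpow] at hordeq
  rw [hD, Finsupp.add_apply, Finsupp.smul_apply, nsmul_eq_mul,
    SemilinearAut.divisor_smul_apply, SemilinearAut.divisor_smul_apply, hE, hT,
    ord_smul_at g Q, ord_smul_at g⁻¹ Q, ord_smul_at g⁻¹ Q]
  linear_combination hordeq

variable (hM : 4 ≤ M) (hD : FieldDegree) (hp : p.Prime) (hpM : ¬ p ∣ M) (hA : A.LiesOverPrime p)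
  {r : Place (AlgebraicClosure ℚ) (FYK M (AlgebraicClosure ℚ)) →
    Place (IsLocalRing.ResidueField A) (FYres M (IsLocalRing.ResidueField A))} (hr : IsRedY r)
include hM hD hp hpM hA hr

omit [NeZero p] in
/-- Reduction intertwines an element of the decomposition group with its residual automorphism. -/
theorem mapDomain_galois {σ : Γℚ} {φ : 𝕜 ≃+* 𝕜} (hσ : EichlerShimura.InducesOn A π σ φ)
    {D : Divisor Qbar (FYK M Qbar)} (hD0 : D ∈ Divisor.degZero (K := Qbar) (F := FYK M Qbar)) :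
    Finsupp.mapDomain r (arithmeticGalois (FY M) σ • D) =
      coeffSL (coeffStable_FYres (M := M) (show M ≠ 1 by omega) 𝕜) φ • Finsupp.mapDomain r D := by
  have := isFunctionField_FYK (K := Qbar) hM hD
  set g := arithmeticGalois (FY M) σ with hg
  set g' := coeffSL (coeffStable_FYres (M := M) (show M ≠ 1 by omega) 𝕜) φ with hg'
  set ψ : Divisor Qbar (FYK M Qbar) →+ Divisor 𝕜 (FYres M 𝕜) :=
    (Finsupp.mapDomain.addMonoidHom r).comp (DistribSMul.toAddMonoidHom _ g) -
      (DistribSMul.toAddMonoidHom _ g').comp (Finsupp.mapDomain.addMonoidHom r) with hψ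
  have happ : ∀ E, ψ E = Finsupp.mapDomain r (g • E) - g' • Finsupp.mapDomain r E := fun E => rfl
  rw [← sub_eq_zero, ← happ]
  refine EichlerShimura.eq_zero_on_degZero_of_closure
    (EichlerShimura.boundedClasses_of_isFunctionField _ _) ψ 2
    (fun P i => ?_) _ (principal_le_intPrincipal hM hD hp hpM hA) ?_ hD0
  · rw [happ, SemilinearAut.smul_single, Finsupp.mapDomain_single, Finsupp.mapDomain_single,
      SemilinearAut.smul_single, Finsupp.sub_apply]
    exact le_trans (Int.natAbs_sub_le _ _)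
      (add_le_add (EichlerShimura.natAbs_single_le _ _) (EichlerShimura.natAbs_single_le _ _))
  rintro E ⟨y, hne, hE⟩
  rw [happ, sub_eq_zero]
  obtain ⟨ys, hys, hysk⟩ := y.2
  have hred := coe_intRed (A := A) (Fk := FYres M 𝕜) hys
  have e1 : coeffMap A.subtype (coeffMap hσ.restr ys) =
      ((g • (y : FYK M Qbar) : FYK M Qbar) : LaurentSeries Qbar) := by
    rw [coeffMap_coeffMap, hσ.subtype_comp, ← coeffMap_coeffMap, hys]
    rfl
  have e2 : coeffMap π (coeffMap hσ.restr ys) =
      ((g' • intRed A π (FYK M Qbar) (FYres M 𝕜) y : FYres M 𝕜) : LaurentSeries 𝕜) := by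
    rw [coeffMap_coeffMap, hσ.comp_restr, ← coeffMap_coeffMap, ← hred]
    rfl
  let y' : intFns A π (FYK M Qbar) (FYres M 𝕜) :=
    ⟨g • (y : FYK M Qbar), coeffMap hσ.restr ys, e1, by rw [e2]; exact SetLike.coe_mem _⟩
  have hy' : intRed A π (FYK M Qbar) (FYres M 𝕜) y' =
      g' • intRed A π (FYK M Qbar) (FYres M 𝕜) y :=
    Subtype.ext ((coe_intRed (f := y') e1).trans e2)
  refine Finsupp.ext fun Q => ?_
  rw [hr y' (fun h0 => hne (by
      rw [hy'] at h0; simpa using congrArg (g'⁻¹ • ·) h0)) (g • E) (fun P => ?_) Q, hy',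
    SemilinearAut.divisor_smul_apply, hr y hne E hE, ord_smul_at]
  rw [SemilinearAut.divisor_smul_apply, hE, ord_smul_at]

variable {δ : SL(2, ℤ)} (hδ : IsDiaRep M p δ) (hC : FieldC)
include hδ hC

/-- The congruence on the divisor of an integral function. -/
theorem mapDomain_corr_integral [FF.IsFunctionField Qbar (FYK M Qbar)]
    [FF.IsFunctionField Qbar (FYP M p Qbar)] {φ : 𝕜 ≃+* 𝕜} (hφ : ∀ x, φ x = x ^ p)
    {E : Divisor Qbar (FYK M Qbar)} (hE : E ∈ intPrincipal (M := M) (A := A)) :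
    Finsupp.mapDomain r (corrDivY hM hδ E) =
      coeffSL (coeffStable_FYres (M := M) (show M ≠ 1 by omega) 𝕜) φ • Finsupp.mapDomain r E +
        p • ((coeffSL (coeffStable_FYres (M := M) (show M ≠ 1 by omega) 𝕜) φ)⁻¹ •
          Finsupp.mapDomain r (diaSL hM hδ.1 • E)) := by
  have : Fact p.Prime := ⟨hp⟩
  have : CharP 𝕜 p := Gal.residueField_charP hp hA
  set g := coeffSL (coeffStable_FYres (M := M) (show M ≠ 1 by omega) 𝕜) φ with hgdef
  set G := gaussY hM hD hp hpM hA
  obtain ⟨y, hne, hEy⟩ := hE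
  obtain ⟨ys, hys, hysk⟩ := y.2
  have hy0 : (y : FYK M Qbar) ≠ 0 := fun h0 => hne (by
    rw [show y = 0 from Subtype.ext h0, map_zero])
  have hred := coe_intRed (A := A) (Fk := FYres M 𝕜) hys
  -- the conjugate `θ y`
  set θy : FYK M Qbar := diaHom hM fQ hδ.1 (y : FYK M Qbar)
  have hθ0 : θy ≠ 0 := (_root_.map_ne_zero _).mpr hy0
  obtain ⟨c, v, hv, hcv⟩ := G.scale θy hθ0
  obtain ⟨a, b, hb, hab⟩ := G.mem_O.mp v.2
  rw [G.red_eq hb hab] at hv
  have ha : G.ρ a ≠ 0 := (div_ne_zero_iff.mp hv).1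
  have hc : c ≠ 0 := by rintro rfl; simp [hcv] at hθ0
  have ha0 : (a : FYK M Qbar) ≠ 0 := fun h0 => ha (by rw [show a = 0 from Subtype.ext h0, map_zero])
  have hb0 : (b : FYK M Qbar) ≠ 0 := fun h0 => hb (by rw [show b = 0 from Subtype.ext h0, map_zero])
  have hθord : ∀ w : Place Qbar (FYK M Qbar),
      w.ord θy = w.ord (a : FYK M Qbar) - w.ord (b : FYK M Qbar) := fun w => by
    rw [hcv, Red.ord_algebraMap_mul w hc, show (v : FYK M Qbar) = (a : FYK M Qbar) / b by
      rw [eq_div_iff hb0]; exact hab, Red.ord_div w ha0 hb0]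
  have hθE : ∀ Q, Finsupp.mapDomain r (diaSL hM hδ.1 • E) Q = Q.ord (G.ρ a) - Q.ord (G.ρ b) := by
    intro Q
    have e : diaSL hM hδ.1 • E = FF.divOf (a : FYK M Qbar) - FF.divOf (b : FYK M Qbar) :=
      Finsupp.ext fun w => by
        rw [Finsupp.sub_apply, FF.divOf_apply, FF.divOf_apply, ← hθord,
          SemilinearAut.divisor_smul_apply, hEy, ord_smul_at]
        rfl
    rw [e, Finsupp.mapDomain_sub, Finsupp.sub_apply, hr a ha _ (FF.divOf_apply _),
      hr b hb _ (FF.divOf_apply _)]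
    rfl
  obtain ⟨za, hza, -⟩ := a.2
  obtain ⟨zb, hzb, -⟩ := b.2
  have hra : (G.ρ a : LaurentSeries 𝕜) = coeffMap π za := coe_intRed hza
  have hrb : (G.ρ b : LaurentSeries 𝕜) = coeffMap π zb := coe_intRed hzb
  have hθser : (θy : LaurentSeries Qbar) * coeffMap A.subtype zb =
      algebraMap Qbar (LaurentSeries Qbar) c * coeffMap A.subtype za := by
    have h1 : θy * (b : FYK M Qbar) = algebraMap Qbar (FYK M Qbar) c * (a : FYK M Qbar) := by
      rw [hcv, mul_assoc, hab]
    rw [hza, hzb]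
    exact congrArg Subtype.val h1
  -- the norm, divided by `c`
  obtain ⟨ζ, hζ, hz⟩ := exists_rootUnit hp A
  obtain ⟨N, hNdef⟩ : ∃ N : FYK M Qbar,
      N = Hecke.normAlong (alphaY p hM) (betaY p hM fQ hδ.1 (y : FYK M Qbar)) := ⟨_, rfl⟩
  obtain ⟨N', hN'def⟩ : ∃ N' : FYK M Qbar, N' = algebraMap Qbar (FYK M Qbar) c⁻¹ * N := ⟨_, rfl⟩
  have hn := qExpand_normAlong_alphaY fQ hM hp hpM hδ hz hC (betaY p hM fQ hδ.1 (y : FYK M Qbar))
  rw [Fintype.prod_option, embY_beta_none fQ hM hp hpM hδ hz, ← hNdef] at hn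
  simp only [embY_beta_some fQ hM hp hpM hδ hz] at hn
  have hfr : frobenius 𝕜 p = (φ : 𝕜 →+* 𝕜) := RingHom.ext fun x => (hφ x).symm
  have hser := exists_norm_series π hφ ζ hζ hc hys hθser hn
  have hW : coeffMap A.subtype hser.choose =
      algebraMap Qbar (LaurentSeries Qbar) c⁻¹ * (N : LaurentSeries Qbar) *
        qExpand Qbar p (coeffMap A.subtype zb) := hser.choose_spec.1
  have hWπ : coeffMap π hser.choose =
      qExpand 𝕜 p (coeffMap π za) * coeffMap (φ : 𝕜 →+* 𝕜) (coeffMap π ys) := hser.choose_spec.2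
  have hyne : coeffMap π ys ≠ 0 := by rw [← hred]; exact fun h0 => hne (Subtype.ext h0)
  have hzbne : coeffMap π (qExpand A p zb) ≠ 0 := by
    rw [coeffMap_qExpand, ← hrb]
    exact (map_ne_zero_iff _ (qExpand_injective p)).mpr fun h0 => hb (Subtype.ext h0)
  have hWne : coeffMap π hser.choose ≠ 0 := by
    rw [hWπ, ← hra]
    exact mul_ne_zero ((map_ne_zero_iff _ (qExpand_injective p)).mpr fun h0 => ha (Subtype.ext h0))
      (_root_.map_ne_zero _ |>.mpr hyne)
  have hh : (N' : LaurentSeries Qbar) * coeffMap A.subtype (qExpand A p zb) =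
      coeffMap A.subtype hser.choose := by
    rw [hN'def, MulMemClass.coe_mul, IntermediateField.coe_algebraMap_apply, coeffMap_qExpand, hW]
  obtain ⟨-, gN, hgN0, hgN, hordN⟩ := exists_red_of_series hM hD hp hpM hA hr N'
    (z := qExpand A p zb) (u := hser.choose) hzbne hWne hh
  have hcancel : ∀ s : LaurentSeries 𝕜,
      coeffMap (φ : 𝕜 →+* 𝕜) (coeffMap (φ.symm : 𝕜 →+* 𝕜) s) = s := fun s => by ext n; simp
  have hpow : ∀ x : FYres M 𝕜, qExpand 𝕜 p (x : LaurentSeries 𝕜) =
      (((g⁻¹ • x) ^ p : FYres M 𝕜) : LaurentSeries 𝕜) := fun x => by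
    rw [SubmonoidClass.coe_pow, coe_coeffSL_inv_smul, EichlerShimura.pow_char_eq_qExpand p, hfr,
      hcancel]
  have heq : gN * (g⁻¹ • G.ρ b) ^ p =
      (g⁻¹ • G.ρ a) ^ p * (g • intRed A π (FYK M Qbar) (FYres M 𝕜) y) := by
    refine Subtype.ext ?_
    rw [MulMemClass.coe_mul, MulMemClass.coe_mul, ← hpow, ← hpow, coe_coeffSL_smul, hred, hrb, hra,
      ← hWπ, ← hgN, coeffMap_qExpand]
  have hN : ∀ P, corrDivY hM hδ E P = P.ord N' := fun P => by
    rw [hN'def, Red.ord_algebraMap_mul P (inv_ne_zero hc), hNdef, corrDivY_div hM hδ hy0 hEy]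
  exact eq_smul_add_of_mul_pow g p hgN0 (fun h0 => ha h0) (fun h0 => hb h0) (fun h0 => hne h0)
    heq (fun Q => hordN _ hN Q) (fun Q => hr y hne E hEy Q) hθE

/-- The congruence relation on divisors of degree zero. -/
theorem mapDomain_corr [FF.IsFunctionField Qbar (FYK M Qbar)]
    [FF.IsFunctionField Qbar (FYP M p Qbar)] {φ : 𝕜 ≃+* 𝕜} (hφ : ∀ x, φ x = x ^ p)
    {D : Divisor Qbar (FYK M Qbar)} (hD0 : D ∈ Divisor.degZero (K := Qbar) (F := FYK M Qbar)) :
    Finsupp.mapDomain r (corrDivY hM hδ D) =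
      coeffSL (coeffStable_FYres (M := M) (show M ≠ 1 by omega) 𝕜) φ • Finsupp.mapDomain r D +
        p • ((coeffSL (coeffStable_FYres (M := M) (show M ≠ 1 by omega) 𝕜) φ)⁻¹ •
          Finsupp.mapDomain r (diaSL hM hδ.1 • D)) := by
  set g := coeffSL (coeffStable_FYres (M := M) (show M ≠ 1 by omega) 𝕜) φ with hgdef
  set ψ : Divisor Qbar (FYK M Qbar) →+ Divisor 𝕜 (FYres M 𝕜) :=
    (Finsupp.mapDomain.addMonoidHom r).comp (corrDivY hM hδ) -
      ((DistribSMul.toAddMonoidHom _ g).comp (Finsupp.mapDomain.addMonoidHom r) +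
        p • (DistribSMul.toAddMonoidHom _ g⁻¹).comp ((Finsupp.mapDomain.addMonoidHom r).comp
          (DistribSMul.toAddMonoidHom _ (diaSL hM hδ.1)))) with hψ
  have happ : ∀ E, ψ E = Finsupp.mapDomain r (corrDivY hM hδ E) -
      (g • Finsupp.mapDomain r E +
        p • (g⁻¹ • Finsupp.mapDomain r (diaSL hM hδ.1 • E))) := fun E => rfl
  rw [← sub_eq_zero, ← happ]
  refine EichlerShimura.eq_zero_on_degZero_of_closure
    (EichlerShimura.boundedClasses_of_isFunctionField _ _) ψ
    (finrankAlong Qbar (betaY p hM fQ hδ.1) + (1 + p)) (fun P i => ?_) _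
    (principal_le_intPrincipal hM hD hp hpM hA)
    (fun E hE => by
      rw [happ, sub_eq_zero]; exact mapDomain_corr_integral hM hD hp hpM hA hr hδ hC hφ hE) hD0
  rw [happ, SemilinearAut.smul_single, Finsupp.mapDomain_single, Finsupp.mapDomain_single,
    SemilinearAut.smul_single, SemilinearAut.smul_single, Finsupp.sub_apply, Finsupp.add_apply,
    Finsupp.smul_apply, nsmul_eq_mul]
  refine le_trans (Int.natAbs_sub_le _ _) (add_le_add ?_ (le_trans (Int.natAbs_add_le _ _)
    (add_le_add (EichlerShimura.natAbs_single_le _ _) ?_)))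
  · exact le_trans (EichlerShimura.natAbs_mapDomain_le r _ i)
      (EichlerShimura.absSum_correspondence_single (betaY p hM fQ hδ.1) (alphaY p hM) _ _
        (Hecke.fundamentalIdentityAlong _ _) (fun P => FF.place_deg_eq_one P) P).le
  · rw [Int.natAbs_mul, Int.natAbs_natCast]
    exact le_trans (Nat.mul_le_mul_left p (EichlerShimura.natAbs_single_le _ _))
      (le_of_eq (mul_one p))

end Reduction

end Fermat.Agent.WeightOneGalois
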